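/-
Programme JAC (S25), brick A6 Cover (helper12), file 1: the bijectivity locus of a linear map
between finite projective modules.

`R` a commutative ring, `θ : P →ₗ[R] Q`.  `bijLocus θ` is the set of primes `p` such that
`κ(p) ⊗ θ` is bijective.

* `surjective_baseChange_iff` : `K ⊗ θ` is surjective iff `K ⊗ coker θ = 0`;
* `mem_bijLocus_iff` : for `P`, `Q` finite projective, `p ∈ bijLocus θ` iff `p ∉ Supp (coker θ)` and
  `rank_p P = rank_p Q`;
* `isOpen_bijLocus` : the locus is open;
* `bijective_iff_bijLocus_eq_univ` : `θ` is bijective iff the locus is everything;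
* `mem_bijLocus_baseChange_iff` : compatibility with base change `R → R'`;
* `mem_bijLocus_iff_exists_away` : `p ∈ bijLocus θ` iff `θ` becomes bijective over some `R[1/f]`,
  `f ∉ p`.
-/
import Mathlib

set_option autoImplicit false

open TensorProduct

namespace Fermat.Agent.Jac.Cover12.BijLocus

universe u v w

variable {R : Type u} [CommRing R] {P : Type v} {Q : Type w} [AddCommGroup P] [Module R P]
  [AddCommGroup Q] [Module R Q]

/-- The set of primes `p` of `R` such that `κ(p) ⊗ θ` is bijective. -/
def bijLocus (θ : P →ₗ[R] Q) : Set (PrimeSpectrum R) :=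
  {p | Function.Bijective (θ.baseChange p.asIdeal.ResidueField)}

theorem mem_bijLocus (θ : P →ₗ[R] Q) (p : PrimeSpectrum R) :
    p ∈ bijLocus θ ↔ Function.Bijective (θ.baseChange p.asIdeal.ResidueField) := Iff.rfl

/-- `K ⊗ θ` is surjective iff `K ⊗ coker θ` vanishes. -/
theorem surjective_baseChange_iff (θ : P →ₗ[R] Q) (K : Type*) [CommRing K] [Algebra R K] :
    Function.Surjective (θ.baseChange K) ↔ Subsingleton (K ⊗[R] (Q ⧸ LinearMap.range θ)) := by
  have hex : Function.Exact θ (LinearMap.range θ).mkQ := by
    intro y
    rw [Submodule.mkQ_apply, Submodule.Quotient.mk_eq_zero]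
    rfl
  have hsurj : Function.Surjective (LinearMap.range θ).mkQ := Submodule.mkQ_surjective _
  have hex' := lTensor_exact K hex hsurj
  have hsurj' := LinearMap.lTensor_surjective K hsurj
  have hfun : (θ.baseChange K : K ⊗[R] P → K ⊗[R] Q) = θ.lTensor K :=
    LinearMap.baseChange_eq_ltensor θ
  rw [hfun]
  constructor
  · intro h
    refine ⟨fun a b => ?_⟩
    obtain ⟨a', rfl⟩ := hsurj' a
    obtain ⟨b', rfl⟩ := hsurj' b
    obtain ⟨a'', rfl⟩ := h a'
    obtain ⟨b'', rfl⟩ := h b'
    rw [(hex' _).mpr ⟨a'', rfl⟩, (hex' _).mpr ⟨b'', rfl⟩]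
  · intro h y
    have : (LinearMap.range θ).mkQ.lTensor K y = 0 := Subsingleton.elim _ _
    exact (hex' y).mp this

/-- Fibre criterion for surjectivity (Nakayama): a linear map into a finite module is surjective
as soon as it is so after tensoring with all residue fields. -/
theorem surjective_of_forall_residueField [Module.Finite R Q] (θ : P →ₗ[R] Q)
    (h : ∀ p : PrimeSpectrum R, Function.Surjective (θ.baseChange p.asIdeal.ResidueField)) :
    Function.Surjective θ := by
  have hsupp : Module.support R (Q ⧸ LinearMap.range θ) = ∅ := by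
    rw [Set.eq_empty_iff_forall_notMem]
    intro p
    rw [Module.mem_support_iff_nontrivial_residueField_tensorProduct,
      not_nontrivial_iff_subsingleton, ← surjective_baseChange_iff]
    exact h p
  rw [Module.support_eq_empty_iff] at hsupp
  rw [← LinearMap.range_eq_top]
  exact Submodule.Quotient.subsingleton_iff.mp hsupp

/-- The base change of a bijective linear map is bijective. -/
theorem bijective_baseChange {θ : P →ₗ[R] Q} (h : Function.Bijective θ) (K : Type*) [CommRing K]
    [Algebra R K] : Function.Bijective (θ.baseChange K) := by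
  let e := LinearEquiv.ofBijective θ h
  have h1 : (θ.baseChange K).comp ((e.symm : Q →ₗ[R] P).baseChange K) = LinearMap.id := by
    rw [← LinearMap.baseChange_comp]
    have : θ.comp (e.symm : Q →ₗ[R] P) = LinearMap.id := by
      ext x
      exact e.apply_symm_apply x
    rw [this, LinearMap.baseChange_id]
  have h2 : ((e.symm : Q →ₗ[R] P).baseChange K).comp (θ.baseChange K) = LinearMap.id := by
    rw [← LinearMap.baseChange_comp]
    have : (e.symm : Q →ₗ[R] P).comp θ = LinearMap.id := by
      ext x
      exact e.symm_apply_apply x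
    rw [this, LinearMap.baseChange_id]
  refine ⟨?_, ?_⟩
  · intro x y hxy
    have := congrArg ((e.symm : Q →ₗ[R] P).baseChange K) hxy
    rwa [← LinearMap.comp_apply, ← LinearMap.comp_apply, h2] at this
  · intro y
    exact ⟨(e.symm : Q →ₗ[R] P).baseChange K y, by rw [← LinearMap.comp_apply, h1]; rfl⟩

/-- A linear map from a finite module to a finite projective module is bijective iff it is so
after tensoring with all residue fields. -/
theorem bijective_iff_bijLocus_eq_univ [Module.Finite R P] [Module.Finite R Q]
    [Module.Projective R Q] (θ : P →ₗ[R] Q) :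
    Function.Bijective θ ↔ bijLocus θ = Set.univ := by
  constructor
  · intro h
    rw [Set.eq_univ_iff_forall]
    intro p
    exact bijective_baseChange h _
  · intro h
    have hb : ∀ p : PrimeSpectrum R, Function.Bijective (θ.baseChange p.asIdeal.ResidueField) :=
      fun p => (mem_bijLocus θ p).mp (h ▸ Set.mem_univ p)
    have hsurj : Function.Surjective θ := surjective_of_forall_residueField θ fun p => (hb p).2
    obtain ⟨s, hs⟩ := Module.projective_lifting_property θ LinearMap.id hsurj
    have hs_surj : Function.Surjective s := by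
      apply surjective_of_forall_residueField
      intro p y
      refine ⟨θ.baseChange _ y, ?_⟩
      apply (hb p).1
      rw [← LinearMap.comp_apply, ← LinearMap.baseChange_comp, hs, LinearMap.baseChange_id]
      rfl
    refine ⟨?_, hsurj⟩
    rw [← LinearMap.ker_eq_bot, LinearMap.ker_eq_bot']
    intro x hx
    obtain ⟨q, rfl⟩ := hs_surj x
    have : θ (s q) = q := by
      rw [← LinearMap.comp_apply, hs]
      rfl
    rw [this] at hx
    rw [hx, map_zero]

/-- Invariance of bijectivity under a tower of base changes. -/
theorem bijective_baseChange_baseChange_iff (θ : P →ₗ[R] Q) (S T : Type*) [CommRing S]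
    [Algebra R S] [CommRing T] [Algebra R T] [Algebra S T] [IsScalarTower R S T] :
    Function.Bijective ((θ.baseChange S).baseChange T) ↔ Function.Bijective (θ.baseChange T) := by
  rw [LinearMap.baseChange_baseChange]
  simp only [LinearMap.coe_comp, LinearEquiv.coe_coe]
  rw [Function.Bijective.of_comp_iff' (LinearEquiv.bijective _),
    Function.Bijective.of_comp_iff _ (LinearEquiv.bijective _)]

/-- **Field-point criterion.**  Membership in the bijectivity locus can be tested on any field `K`
over `R` whose structure map has kernel `p`. -/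
theorem mem_bijLocus_iff_of_field (θ : P →ₗ[R] Q) (p : PrimeSpectrum R) (K : Type*) [Field K]
    [Algebra R K] (hp : RingHom.ker (algebraMap R K) = p.asIdeal) :
    p ∈ bijLocus θ ↔ Function.Bijective (θ.baseChange K) := by
  have h1 : p.asIdeal ≤ RingHom.ker (Algebra.ofId R K) := by
    intro r hr
    rw [← hp] at hr
    exact hr
  have h2 : p.asIdeal.primeCompl ≤ (IsUnit.submonoid K).comap (Algebra.ofId R K) := by
    intro r hr
    rw [Submonoid.mem_comap]
    show IsUnit (algebraMap R K r)
    rw [isUnit_iff_ne_zero]
    intro h0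
    apply hr
    rw [← hp]
    exact h0
  let f : p.asIdeal.ResidueField →ₐ[R] K :=
    Ideal.ResidueField.liftₐ p.asIdeal (Algebra.ofId R K) h1 h2
  let _ : Algebra p.asIdeal.ResidueField K := f.toRingHom.toAlgebra
  have : IsScalarTower R p.asIdeal.ResidueField K :=
    IsScalarTower.of_algebraMap_eq fun r => (f.commutes r).symm
  rw [mem_bijLocus, ← bijective_baseChange_baseChange_iff θ p.asIdeal.ResidueField K]
  exact (Module.FaithfullyFlat.lTensor_bijective_iff_bijective p.asIdeal.ResidueField K
    (θ.baseChange p.asIdeal.ResidueField)).symm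

/-- **Base change.**  The bijectivity locus of `R' ⊗ θ` is the preimage of that of `θ`. -/
theorem mem_bijLocus_baseChange_iff (θ : P →ₗ[R] Q) (R' : Type*) [CommRing R'] [Algebra R R']
    (p' : PrimeSpectrum R') :
    p' ∈ bijLocus (θ.baseChange R') ↔ p'.comap (algebraMap R R') ∈ bijLocus θ := by
  rw [mem_bijLocus, bijective_baseChange_baseChange_iff θ R' p'.asIdeal.ResidueField]
  refine (mem_bijLocus_iff_of_field θ (p'.comap (algebraMap R R')) p'.asIdeal.ResidueField ?_).symm
  ext r
  rw [RingHom.mem_ker, IsScalarTower.algebraMap_apply R R' p'.asIdeal.ResidueField,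
    Ideal.algebraMap_residueField_eq_zero]
  rfl

section FiniteProjective

variable [Module.Finite R P] [Module.Projective R P] [Module.Finite R Q] [Module.Projective R Q]

/-- For finite projective `P`, `Q`: `κ(p) ⊗ θ` is bijective iff `p` is not in the support of the
cokernel and the ranks of `P` and `Q` at `p` agree. -/
theorem mem_bijLocus_iff (θ : P →ₗ[R] Q) (p : PrimeSpectrum R) :
    p ∈ bijLocus θ ↔
      p ∉ Module.support R (Q ⧸ LinearMap.range θ) ∧
        Module.rankAtStalk P p = Module.rankAtStalk Q p := by
  rw [mem_bijLocus, Module.mem_support_iff_nontrivial_residueField_tensorProduct,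
    not_nontrivial_iff_subsingleton, ← surjective_baseChange_iff, Module.rankAtStalk_eq,
    Module.rankAtStalk_eq]
  constructor
  · intro h
    exact ⟨h.2, (LinearEquiv.ofBijective _ h).finrank_eq⟩
  · rintro ⟨h1, h2⟩
    exact ⟨(LinearMap.injective_iff_surjective_of_finrank_eq_finrank h2).mpr h1, h1⟩

/-- The bijectivity locus is open. -/
theorem isOpen_bijLocus (θ : P →ₗ[R] Q) : IsOpen (bijLocus θ) := by
  have h1 : IsOpen (Module.support R (Q ⧸ LinearMap.range θ))ᶜ :=
    (Module.isClosed_support (R := R) (M := Q ⧸ LinearMap.range θ)).isOpen_compl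
  have : Module.FinitePresentation R P := Module.finitePresentation_of_projective R P
  have : Module.FinitePresentation R Q := Module.finitePresentation_of_projective R Q
  have hP : IsLocallyConstant (Module.rankAtStalk (R := R) P) :=
    Module.isLocallyConstant_rankAtStalk
  have hQ : IsLocallyConstant (Module.rankAtStalk (R := R) Q) :=
    Module.isLocallyConstant_rankAtStalk
  have h2 : IsOpen {p : PrimeSpectrum R | Module.rankAtStalk P p = Module.rankAtStalk Q p} := by
    have hPQ : IsLocallyConstant
        (fun p : PrimeSpectrum R => (Module.rankAtStalk P p, Module.rankAtStalk Q p)) :=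
      hP.prodMk hQ
    exact hPQ {x : ℕ × ℕ | x.1 = x.2}
  have : bijLocus θ = (Module.support R (Q ⧸ LinearMap.range θ))ᶜ ∩
      {p : PrimeSpectrum R | Module.rankAtStalk P p = Module.rankAtStalk Q p} := by
    ext p
    rw [mem_bijLocus_iff]
    rfl
  rw [this]
  exact h1.inter h2

/-- `p ∈ bijLocus θ` iff `θ` becomes bijective over some `R[1/f]` with `f ∉ p`. -/
theorem mem_bijLocus_iff_exists_away (θ : P →ₗ[R] Q) (p : PrimeSpectrum R) :
    p ∈ bijLocus θ ↔
      ∃ f : R, f ∉ p.asIdeal ∧ Function.Bijective (θ.baseChange (Localization.Away f)) := by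
  constructor
  · intro hp
    obtain ⟨_, ⟨f, rfl⟩, hpf, hsub⟩ :=
      PrimeSpectrum.isTopologicalBasis_basic_opens.exists_subset_of_mem_open hp (isOpen_bijLocus θ)
    refine ⟨f, hpf, ?_⟩
    rw [bijective_iff_bijLocus_eq_univ, Set.eq_univ_iff_forall]
    intro p'
    rw [mem_bijLocus_baseChange_iff]
    apply hsub
    show PrimeSpectrum.comap (algebraMap R (Localization.Away f)) p' ∈
      (PrimeSpectrum.basicOpen f : Set (PrimeSpectrum R))
    rw [← PrimeSpectrum.localization_away_comap_range (Localization.Away f) f]
    exact ⟨p', rfl⟩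
  · rintro ⟨f, hf, hb⟩
    have hmem : p ∈ (PrimeSpectrum.basicOpen f : Set (PrimeSpectrum R)) := hf
    rw [← PrimeSpectrum.localization_away_comap_range (Localization.Away f) f] at hmem
    obtain ⟨p', rfl⟩ := hmem
    rw [← mem_bijLocus_baseChange_iff]
    have := (bijective_iff_bijLocus_eq_univ (θ.baseChange (Localization.Away f))).mp hb
    rw [this]
    exact Set.mem_univ _

end FiniteProjective

end Fermat.Agent.Jac.Cover12.BijLocus
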