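/-
Programme JAC (S25), brick A6 Cover (helper12), file 3: the locus of fibrewise vanishing of `H¹`
of a two-chart module, and its compatibility with base change.

Part 1 (generic, Mathlib only): the surjectivity locus `surjLocus θ` of a linear map
`θ : P →ₗ[R] Q`: the set of primes `p` with `κ(p) ⊗ θ` surjective.  It is the complement of the
support of `coker θ`; it can be tested on any field point; it commutes with base change; it is
open if `coker θ` is finite; `θ` is surjective iff the locus is everything (finite cokernel).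

Part 2: `h1Locus L = {p | H¹(L_{κ(p)}) = 0}` for `L : QC2 A R0 R1 R01`.

Part 3: base change.  In the cube setting of `JSmooth85Alg.LiftData` with pushout squares
`R0' = A' ⊗[A] R0` etc., the Čech differential of a base change `L'` of `L` is isomorphic (as an
arrow of `A'`-modules) to `A' ⊗[A] L.d`; hence `H¹`/`H⁰` of all further base changes agree and
`h1Locus L' = (Spec A' → Spec A)⁻¹ (h1Locus L)`.
-/
import Fermat.Agent.Jac.P1CohH1
import Fermat.Agent.Jac.LineOps39.Basic
import Fermat.Agent.Jac.BaseChange75.Rings
import Fermat.Agent.Jac.BaseChange75.Cube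
import Fermat.Agent.Jac.Cover12.BijLocus

set_option autoImplicit false
set_option linter.unusedSectionVars false

open TensorProduct

namespace Fermat.Agent.Jac.Cover12.H1Locus

open Fermat.Agent.Jac.Cover12.BijLocus

/-! ### Part 1: the surjectivity locus of a linear map -/

section Generic

universe u v w

variable {R : Type u} [CommRing R] {P : Type v} {Q : Type w} [AddCommGroup P] [Module R P]
  [AddCommGroup Q] [Module R Q]

/-- The set of primes `p` of `R` such that `κ(p) ⊗ θ` is surjective. -/
def surjLocus (θ : P →ₗ[R] Q) : Set (PrimeSpectrum R) :=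
  {p | Function.Surjective (θ.baseChange p.asIdeal.ResidueField)}

theorem mem_surjLocus (θ : P →ₗ[R] Q) (p : PrimeSpectrum R) :
    p ∈ surjLocus θ ↔ Function.Surjective (θ.baseChange p.asIdeal.ResidueField) := Iff.rfl

/-- The surjectivity locus is the complement of the support of the cokernel. -/
theorem surjLocus_eq_compl_support (θ : P →ₗ[R] Q) [Module.Finite R (Q ⧸ LinearMap.range θ)] :
    surjLocus θ = (Module.support R (Q ⧸ LinearMap.range θ))ᶜ := by
  ext p
  rw [mem_surjLocus, Set.mem_compl_iff, Module.mem_support_iff_nontrivial_residueField_tensorProduct,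
    not_nontrivial_iff_subsingleton, ← surjective_baseChange_iff]

/-- The surjectivity locus is open if the cokernel is a finite module. -/
theorem isOpen_surjLocus (θ : P →ₗ[R] Q) [Module.Finite R (Q ⧸ LinearMap.range θ)] :
    IsOpen (surjLocus θ) := by
  rw [surjLocus_eq_compl_support]
  exact (Module.isClosed_support (R := R) (M := Q ⧸ LinearMap.range θ)).isOpen_compl

/-- The base change of a surjective linear map is surjective. -/
theorem surjective_baseChange {θ : P →ₗ[R] Q} (h : Function.Surjective θ) (K : Type*)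
    [CommRing K] [Algebra R K] : Function.Surjective (θ.baseChange K) := by
  have hfun : (θ.baseChange K : K ⊗[R] P → K ⊗[R] Q) = θ.lTensor K :=
    LinearMap.baseChange_eq_ltensor θ
  rw [hfun]
  exact LinearMap.lTensor_surjective K h

/-- A linear map with finite cokernel is surjective iff its surjectivity locus is everything. -/
theorem surjective_iff_surjLocus_eq_univ (θ : P →ₗ[R] Q)
    [Module.Finite R (Q ⧸ LinearMap.range θ)] :
    Function.Surjective θ ↔ surjLocus θ = Set.univ := by
  constructor
  · intro h
    rw [Set.eq_univ_iff_forall]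
    intro p
    exact surjective_baseChange h _
  · intro h
    rw [surjLocus_eq_compl_support, Set.compl_univ_iff,
      Module.support_eq_empty_iff] at h
    rw [← LinearMap.range_eq_top]
    exact Submodule.Quotient.subsingleton_iff.mp h

/-- Invariance of surjectivity under a tower of base changes. -/
theorem surjective_baseChange_baseChange_iff (θ : P →ₗ[R] Q) (S T : Type*) [CommRing S]
    [Algebra R S] [CommRing T] [Algebra R T] [Algebra S T] [IsScalarTower R S T] :
    Function.Surjective ((θ.baseChange S).baseChange T) ↔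
      Function.Surjective (θ.baseChange T) := by
  rw [LinearMap.baseChange_baseChange]
  simp only [LinearMap.coe_comp, LinearEquiv.coe_coe]
  rw [Function.Surjective.of_comp_iff' (LinearEquiv.bijective _),
    Function.Surjective.of_comp_iff _ (LinearEquiv.surjective _)]

/-- **Field-point criterion.**  Membership in the surjectivity locus can be tested on any field
`K` over `R` whose structure map has kernel `p`. -/
theorem mem_surjLocus_iff_of_field (θ : P →ₗ[R] Q) (p : PrimeSpectrum R) (K : Type*) [Field K]
    [Algebra R K] (hp : RingHom.ker (algebraMap R K) = p.asIdeal) :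
    p ∈ surjLocus θ ↔ Function.Surjective (θ.baseChange K) := by
  have h1 : p.asIdeal ≤ RingHom.ker (Algebra.ofId R K) := by
    intro r hr
    rw [← hp] at hr
    exact hr
  have h2 : p.asIdeal.primeCompl ≤ (IsUnit.submonoid K).comap (Algebra.ofId R K) := by
    intro r hr
    rw [Submonoid.mem_comap]
    show IsUnit (algebraMap R K r)
    rw [isUnit_iff_ne_zero]
    intro h0
    apply hr
    rw [← hp]
    exact h0
  let f : p.asIdeal.ResidueField →ₐ[R] K :=
    Ideal.ResidueField.liftₐ p.asIdeal (Algebra.ofId R K) h1 h2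
  let _ : Algebra p.asIdeal.ResidueField K := f.toRingHom.toAlgebra
  have : IsScalarTower R p.asIdeal.ResidueField K :=
    IsScalarTower.of_algebraMap_eq fun r => (f.commutes r).symm
  rw [mem_surjLocus, ← surjective_baseChange_baseChange_iff θ p.asIdeal.ResidueField K]
  exact (Module.FaithfullyFlat.lTensor_surjective_iff_surjective p.asIdeal.ResidueField K
    (θ.baseChange p.asIdeal.ResidueField)).symm

/-- **Base change.**  The surjectivity locus of `R' ⊗ θ` is the preimage of that of `θ`. -/
theorem mem_surjLocus_baseChange_iff (θ : P →ₗ[R] Q) (R' : Type*) [CommRing R'] [Algebra R R']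
    (p' : PrimeSpectrum R') :
    p' ∈ surjLocus (θ.baseChange R') ↔ p'.comap (algebraMap R R') ∈ surjLocus θ := by
  rw [mem_surjLocus, surjective_baseChange_baseChange_iff θ R' p'.asIdeal.ResidueField]
  refine (mem_surjLocus_iff_of_field θ (p'.comap (algebraMap R R')) p'.asIdeal.ResidueField
    ?_).symm
  ext r
  rw [RingHom.mem_ker, IsScalarTower.algebraMap_apply R R' p'.asIdeal.ResidueField,
    Ideal.algebraMap_residueField_eq_zero]
  rfl

/-- `p ∈ surjLocus θ` iff `θ` becomes surjective over some `R[1/f]` with `f ∉ p`. -/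
theorem mem_surjLocus_iff_exists_away (θ : P →ₗ[R] Q) [Module.Finite R (Q ⧸ LinearMap.range θ)]
    (p : PrimeSpectrum R) :
    p ∈ surjLocus θ ↔
      ∃ f : R, f ∉ p.asIdeal ∧ Function.Surjective (θ.baseChange (Localization.Away f)) := by
  constructor
  · intro hp
    obtain ⟨_, ⟨f, rfl⟩, hpf, hsub⟩ :=
      PrimeSpectrum.isTopologicalBasis_basic_opens.exists_subset_of_mem_open hp
        (isOpen_surjLocus θ)
    refine ⟨f, hpf, ?_⟩
    rw [surjective_baseChange_iff]
    have hloc : IsLocalizedModule (Submonoid.powers f)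
        (TensorProduct.mk R (Localization.Away f) (Q ⧸ LinearMap.range θ) 1) :=
      (isLocalizedModule_iff_isBaseChange (Submonoid.powers f) (Localization.Away f) _).mpr
        (TensorProduct.isBaseChange R (Q ⧸ LinearMap.range θ) (Localization.Away f))
    have hsub' : Subsingleton (LocalizedModule (Submonoid.powers f) (Q ⧸ LinearMap.range θ)) := by
      rw [LocalizedModule.subsingleton_iff_support_subset]
      intro q hq
      by_contra hqf
      have hqf' : f ∉ q.asIdeal := fun h =>
        hqf (by rw [PrimeSpectrum.mem_zeroLocus]; exact Set.singleton_subset_iff.mpr h)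
      have hq' : q ∈ surjLocus θ := hsub hqf'
      rw [surjLocus_eq_compl_support] at hq'
      exact hq' hq
    exact (IsLocalizedModule.iso (Submonoid.powers f)
      (TensorProduct.mk R (Localization.Away f) (Q ⧸ LinearMap.range θ) 1)).symm.toEquiv.subsingleton
  · rintro ⟨f, hf, hb⟩
    have hmem : p ∈ (PrimeSpectrum.basicOpen f : Set (PrimeSpectrum R)) := hf
    rw [← PrimeSpectrum.localization_away_comap_range (Localization.Away f) f] at hmem
    obtain ⟨p', rfl⟩ := hmem
    rw [← mem_surjLocus_baseChange_iff]
    exact surjective_baseChange hb _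

end Generic

/-! ### Isomorphic arrows -/

section Arrow

variable {S : Type*} [CommRing S] {M N M' N' : Type*} [AddCommGroup M] [AddCommGroup N]
  [AddCommGroup M'] [AddCommGroup N'] [Module S M] [Module S N] [Module S M'] [Module S N']
  (f : M →ₗ[S] N) (g : M' →ₗ[S] N') (e : M ≃ₗ[S] M') (e' : N ≃ₗ[S] N')

theorem surjective_iff_of_arrowIso (h : ∀ x, g (e x) = e' (f x)) :
    Function.Surjective g ↔ Function.Surjective f := by
  have hfun : (g : M' → N') ∘ (e : M → M') = (e' : N → N') ∘ (f : M → N) := funext h
  have h1 : Function.Surjective ((g : M' → N') ∘ (e : M → M')) ↔ Function.Surjective g :=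
    Function.Surjective.of_comp_iff _ e.surjective
  have h2 : Function.Surjective ((e' : N → N') ∘ (f : M → N)) ↔ Function.Surjective f :=
    Function.Surjective.of_comp_iff' e'.bijective _
  rw [← h1, hfun, h2]

/-- Isomorphic arrows have isomorphic kernels. -/
def kerEquivOfArrowIso (h : ∀ x, g (e x) = e' (f x)) : LinearMap.ker f ≃ₗ[S] LinearMap.ker g :=
  e.ofSubmodules (LinearMap.ker f) (LinearMap.ker g) (by
    ext y
    rw [Submodule.mem_map, LinearMap.mem_ker]
    constructor
    · rintro ⟨x, hx, rfl⟩
      rw [LinearMap.mem_ker] at hx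
      rw [LinearEquiv.coe_coe, h, hx, map_zero]
    · intro hy
      refine ⟨e.symm y, ?_, by simp⟩
      rw [LinearMap.mem_ker]
      apply e'.injective
      rw [← h, LinearEquiv.apply_symm_apply, hy, map_zero])

/-- Isomorphic arrows have isomorphic cokernels. -/
def cokerEquivOfArrowIso (h : ∀ x, g (e x) = e' (f x)) :
    (N ⧸ LinearMap.range f) ≃ₗ[S] (N' ⧸ LinearMap.range g) :=
  Submodule.Quotient.equiv (LinearMap.range f) (LinearMap.range g) e' (by
    ext y
    rw [Submodule.mem_map, LinearMap.mem_range]
    constructor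
    · rintro ⟨_, ⟨x, rfl⟩, rfl⟩
      exact ⟨e x, by rw [h]; rfl⟩
    · rintro ⟨x', rfl⟩
      refine ⟨f (e.symm x'), ⟨e.symm x', rfl⟩, ?_⟩
      rw [LinearEquiv.coe_coe, ← h, LinearEquiv.apply_symm_apply])

/-- Base change of isomorphic arrows. -/
theorem baseChange_arrowIso (h : ∀ x, g (e x) = e' (f x)) (K : Type*) [CommRing K] [Algebra S K]
    (x : K ⊗[S] M) :
    g.baseChange K (TensorProduct.AlgebraTensorModule.congr (LinearEquiv.refl K K) e x) =
      TensorProduct.AlgebraTensorModule.congr (LinearEquiv.refl K K) e' (f.baseChange K x) := by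
  induction x using TensorProduct.induction_on with
  | zero => simp
  | add x y hx hy => simp only [map_add, hx, hy]
  | tmul a x => simp [h]

end Arrow

/-! ### Part 2: the vanishing locus of the fibrewise `H¹` of a two-chart module -/

section QC2Locus

universe u

variable {A R0 R1 R01 : Type u} [CommRing A] [CommRing R0] [CommRing R1] [CommRing R01]
  [Algebra A R0] [Algebra A R1] [Algebra A R01] [Algebra R0 R01] [Algebra R1 R01]
  [IsScalarTower A R0 R01] [IsScalarTower A R1 R01]

/-- `H¹` of the base change to `K` vanishes iff the base-changed Čech differential is onto. -/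
theorem subsingleton_H1BC_iff (L : QC2 A R0 R1 R01) (K : Type u) [CommRing K] [Algebra A K] :
    Subsingleton (L.H1BC K) ↔ Function.Surjective (L.d.baseChange K) := by
  rw [Submodule.Quotient.subsingleton_iff, LinearMap.range_eq_top]
  rfl

/-- `H¹` vanishes iff the Čech differential is onto. -/
theorem subsingleton_H1_iff (L : QC2 A R0 R1 R01) :
    Subsingleton L.H1 ↔ Function.Surjective L.d := by
  rw [Submodule.Quotient.subsingleton_iff, LinearMap.range_eq_top]

/-- The set of primes `p` of `A` at which the fibrewise `H¹` of `L` vanishes. -/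
def h1Locus (L : QC2 A R0 R1 R01) : Set (PrimeSpectrum A) :=
  {p | Subsingleton (L.H1BC p.asIdeal.ResidueField)}

theorem mem_h1Locus (L : QC2 A R0 R1 R01) (p : PrimeSpectrum A) :
    p ∈ h1Locus L ↔ Subsingleton (L.H1BC p.asIdeal.ResidueField) := Iff.rfl

theorem h1Locus_eq_surjLocus (L : QC2 A R0 R1 R01) : h1Locus L = surjLocus L.d := by
  ext p
  rw [mem_h1Locus, subsingleton_H1BC_iff, mem_surjLocus]

/-- **Field-point criterion**: membership of `p` in the `H¹`-vanishing locus can be tested on any
field `K` over `A` whose structure map has kernel `p`. -/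
theorem mem_h1Locus_iff_of_field (L : QC2 A R0 R1 R01) (p : PrimeSpectrum A) (K : Type u)
    [Field K] [Algebra A K] (hp : RingHom.ker (algebraMap A K) = p.asIdeal) :
    p ∈ h1Locus L ↔ Subsingleton (L.H1BC K) := by
  rw [h1Locus_eq_surjLocus, mem_surjLocus_iff_of_field L.d p K hp, subsingleton_H1BC_iff]

/-- Field-point criterion, in terms of the point `Spec K → Spec A`. -/
theorem comap_mem_h1Locus_iff (L : QC2 A R0 R1 R01) (K : Type u) [Field K] [Algebra A K]
    (q : PrimeSpectrum K) :
    q.comap (algebraMap A K) ∈ h1Locus L ↔ Subsingleton (L.H1BC K) := by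
  refine mem_h1Locus_iff_of_field L _ K ?_
  ext r
  have hq : q.asIdeal = ⊥ := by
    rcases Ideal.eq_bot_or_top q.asIdeal with h | h
    · exact h
    · exact absurd h q.2.ne_top
  show algebraMap A K r = 0 ↔ algebraMap A K r ∈ q.asIdeal
  rw [hq, Ideal.mem_bot]

/-- Isomorphic two-chart modules have the same `H¹`-vanishing locus. -/
theorem h1Locus_iso {L M : QC2 A R0 R1 R01} (i : QC2.Iso L M) : h1Locus L = h1Locus M := by
  ext p
  rw [mem_h1Locus, mem_h1Locus]
  have e : L.H1BC p.asIdeal.ResidueField ≃ₗ[p.asIdeal.ResidueField]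
      M.H1BC p.asIdeal.ResidueField :=
    (P1CohH1.H1BCEquiv L p.asIdeal.ResidueField).symm ≪≫ₗ
      (TensorProduct.AlgebraTensorModule.congr
        (LinearEquiv.refl p.asIdeal.ResidueField p.asIdeal.ResidueField) (LineOps39.isoH1 i)) ≪≫ₗ
      P1CohH1.H1BCEquiv M p.asIdeal.ResidueField
  exact e.toEquiv.subsingleton_congr

variable (c : TwoChart A R0 R1 R01)

/-- The `H¹`-vanishing locus is open. -/
theorem isOpen_h1Locus (L : QC2 A R0 R1 R01) (h : L.FiniteOverLine c) : IsOpen (h1Locus L) :=
  P1CohH1.isOpen_setOf_subsingleton_H1BC_residueField c L h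

/-- The `H¹`-vanishing locus is everything iff `H¹ = 0`. -/
theorem h1Locus_eq_univ_iff (L : QC2 A R0 R1 R01) (h : L.FiniteOverLine c) :
    h1Locus L = Set.univ ↔ Subsingleton L.H1 := by
  have := P1CohH1.finite_H1 c L h
  rw [h1Locus_eq_surjLocus, ← surjective_iff_surjLocus_eq_univ, subsingleton_H1_iff]

/-- `p` lies in the `H¹`-vanishing locus iff `H¹` vanishes over some `A[1/f]`, `f ∉ p`. -/
theorem mem_h1Locus_iff_exists_away (L : QC2 A R0 R1 R01) (h : L.FiniteOverLine c)
    (p : PrimeSpectrum A) :
    p ∈ h1Locus L ↔ ∃ f : A, f ∉ p.asIdeal ∧ Subsingleton (L.H1BC (Localization.Away f)) := by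
  have := P1CohH1.finite_H1 c L h
  rw [h1Locus_eq_surjLocus, mem_surjLocus_iff_exists_away]
  simp only [subsingleton_H1BC_iff]

end QC2Locus

/-! ### Part 3: base change along a cube of rings with pushout faces -/

section Lift

open JSmooth85Alg

universe u

variable {A R0 R1 R01 A' R0' R1' R01' : Type u}
  [CommRing A] [CommRing R0] [CommRing R1] [CommRing R01]
  [Algebra A R0] [Algebra A R1] [Algebra A R01] [Algebra R0 R01] [Algebra R1 R01]
  [IsScalarTower A R0 R01] [IsScalarTower A R1 R01]
  [CommRing A'] [CommRing R0'] [CommRing R1'] [CommRing R01']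
  [Algebra A' R0'] [Algebra A' R1'] [Algebra A' R01'] [Algebra R0' R01'] [Algebra R1' R01']
  [IsScalarTower A' R0' R01'] [IsScalarTower A' R1' R01']
  [Algebra R0 R0'] [Algebra R1 R1'] [Algebra R01 R01']
  [Algebra A A'] [Algebra A R0'] [Algebra A R1'] [Algebra A R01']
  [IsScalarTower A A' R0'] [IsScalarTower A R0 R0'] [Algebra.IsPushout A A' R0 R0']
  [IsScalarTower A A' R1'] [IsScalarTower A R1 R1'] [Algebra.IsPushout A A' R1 R1']
  [IsScalarTower A A' R01'] [IsScalarTower A R01 R01'] [Algebra.IsPushout A A' R01 R01']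

/-- A base change `N'` of an `R`-module `N` along `R → R'`, where `R' = A' ⊗[A] R`, is the base
change of `N` along `A → A'`. -/
noncomputable def chartEquiv {R R' : Type u} [CommRing R] [CommRing R'] [Algebra A R]
    [Algebra A' R'] [Algebra R R'] [Algebra A R'] [IsScalarTower A A' R'] [IsScalarTower A R R']
    [Algebra.IsPushout A A' R R']
    {N N' : Type u} [AddCommGroup N] [Module A N] [Module R N] [IsScalarTower A R N]
    [AddCommGroup N'] [Module A' N'] [Module R' N'] [IsScalarTower A' R' N']
    (e : R' ⊗[R] N ≃ₗ[R'] N') : A' ⊗[A] N ≃ₗ[A'] N' :=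
  (Algebra.IsPushout.cancelBaseChange A A' R R' N).symm ≪≫ₗ e.restrictScalars A'

theorem chartEquiv_tmul {R R' : Type u} [CommRing R] [CommRing R'] [Algebra A R]
    [Algebra A' R'] [Algebra R R'] [Algebra A R'] [IsScalarTower A A' R'] [IsScalarTower A R R']
    [Algebra.IsPushout A A' R R']
    {N N' : Type u} [AddCommGroup N] [Module A N] [Module R N] [IsScalarTower A R N]
    [AddCommGroup N'] [Module A' N'] [Module R' N'] [IsScalarTower A' R' N']
    (e : R' ⊗[R] N ≃ₗ[R'] N') (a : A') (n : N) :
    chartEquiv (A := A) (A' := A') e (a ⊗ₜ[A] n) = a • e (1 ⊗ₜ[R] n) := by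
  unfold chartEquiv
  rw [LinearEquiv.trans_apply, Algebra.IsPushout.cancelBaseChange_symm_tmul]
  have h1 : algebraMap A' R' a ⊗ₜ[R] n = a • ((1 : R') ⊗ₜ[R] n) := by
    rw [TensorProduct.smul_tmul', Algebra.smul_def, mul_one]
  rw [h1, map_smul]
  rfl

variable {L : QC2 A R0 R1 R01} {L' : QC2 A' R0' R1' R01'}

/-- The degree-zero term of the Čech complex of a base change. -/
noncomputable def liftC0 (h : LiftData L L') : A' ⊗[A] (L.N0 × L.N1) ≃ₗ[A'] L'.N0 × L'.N1 :=
  TensorProduct.prodRight A A' A' L.N0 L.N1 ≪≫ₗ
    LinearEquiv.prodCongr (chartEquiv (A := A) (A' := A') h.e0)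
      (chartEquiv (A := A) (A' := A') h.e1)

/-- The degree-one term of the Čech complex of a base change. -/
noncomputable def liftC1 (h : LiftData L L') : A' ⊗[A] L.N01 ≃ₗ[A'] L'.N01 :=
  chartEquiv (A := A) (A' := A') h.e01

/-- The Čech differential of a base change `L'` of `L` is `A' ⊗[A] L.d`. -/
theorem d_liftC0 (h : LiftData L L') (x : A' ⊗[A] (L.N0 × L.N1)) :
    L'.d (liftC0 h x) = liftC1 h (L.d.baseChange A' x) := by
  induction x using TensorProduct.induction_on with
  | zero => simp
  | add x y hx hy => rw [map_add, map_add, hx, hy, map_add, map_add]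
  | tmul a x =>
    obtain ⟨x0, x1⟩ := x
    rw [LinearMap.baseChange_tmul, LineOps39.d_apply]
    simp only [liftC0, liftC1, LinearEquiv.trans_apply, TensorProduct.prodRight_tmul,
      LinearEquiv.prodCongr_apply, LineOps39.d_apply, chartEquiv_tmul, tmul_sub, map_sub]
    rw [LinearMap.map_smul_of_tower, LinearMap.map_smul_of_tower, ← h.comm0, ← h.comm1]

/-- `H¹` of a base change `L'` of `L` along `A → A'` is `H¹` of `A' ⊗[A] (Čech complex of L)`. -/
noncomputable def H1LiftEquiv (h : LiftData L L') : L'.H1 ≃ₗ[A'] L.H1BC A' :=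
  (cokerEquivOfArrowIso (L.d.baseChange A') L'.d (liftC0 h) (liftC1 h) (d_liftC0 h)).symm

/-- `H⁰` of a base change `L'` of `L` along `A → A'` is `H⁰` of `A' ⊗[A] (Čech complex of L)`. -/
noncomputable def H0LiftEquiv (h : LiftData L L') : L'.H0 ≃ₗ[A'] L.H0BC A' :=
  (kerEquivOfArrowIso (L.d.baseChange A') L'.d (liftC0 h) (liftC1 h) (d_liftC0 h)).symm

theorem surjective_d_lift_iff (h : LiftData L L') :
    Function.Surjective L'.d ↔ Function.Surjective (L.d.baseChange A') :=
  surjective_iff_of_arrowIso (L.d.baseChange A') L'.d (liftC0 h) (liftC1 h) (d_liftC0 h)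

/-- `H¹(L') = 0` iff `H¹(L_{A'}) = 0`. -/
theorem subsingleton_H1_lift_iff (h : LiftData L L') :
    Subsingleton L'.H1 ↔ Subsingleton (L.H1BC A') :=
  (H1LiftEquiv h).toEquiv.subsingleton_congr

section Further

variable (K : Type u) [CommRing K] [Algebra A' K] [Algebra A K] [IsScalarTower A A' K]

/-- Degree-zero comparison for a further base change `A' → K`. -/
noncomputable def liftBC0 (h : LiftData L L') :
    K ⊗[A'] (L'.N0 × L'.N1) ≃ₗ[K] K ⊗[A] (L.N0 × L.N1) :=
  (TensorProduct.AlgebraTensorModule.congr (LinearEquiv.refl K K) (liftC0 h)).symm ≪≫ₗ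
    TensorProduct.AlgebraTensorModule.cancelBaseChange A A' K K (L.N0 × L.N1)

/-- Degree-one comparison for a further base change `A' → K`. -/
noncomputable def liftBC1 (h : LiftData L L') : K ⊗[A'] L'.N01 ≃ₗ[K] K ⊗[A] L.N01 :=
  (TensorProduct.AlgebraTensorModule.congr (LinearEquiv.refl K K) (liftC1 h)).symm ≪≫ₗ
    TensorProduct.AlgebraTensorModule.cancelBaseChange A A' K K L.N01

/-- The base change to `K` of the Čech complex of `L'` is the base change to `K` of that of `L`. -/
theorem dBC_liftBC0 (h : LiftData L L') (x : K ⊗[A'] (L'.N0 × L'.N1)) :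
    L.d.baseChange K (liftBC0 K h x) = liftBC1 K h (L'.d.baseChange K x) := by
  obtain ⟨y, rfl⟩ := (TensorProduct.AlgebraTensorModule.congr (LinearEquiv.refl K K)
    (liftC0 h)).surjective x
  rw [baseChange_arrowIso (L.d.baseChange A') L'.d (liftC0 h) (liftC1 h) (d_liftC0 h) K y]
  simp only [liftBC0, liftBC1, LinearEquiv.trans_apply, LinearEquiv.symm_apply_apply]
  rw [LinearMap.baseChange_baseChange]
  simp only [LinearMap.coe_comp, LinearEquiv.coe_coe, Function.comp_apply,
    LinearEquiv.apply_symm_apply]

/-- `H¹` of a further base change `A' → K` of `L'` agrees with `H¹` of the base change of `L`. -/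
noncomputable def H1BCLiftEquiv (h : LiftData L L') : L'.H1BC K ≃ₗ[K] L.H1BC K :=
  cokerEquivOfArrowIso (L'.d.baseChange K) (L.d.baseChange K) (liftBC0 K h) (liftBC1 K h)
    (dBC_liftBC0 K h)

/-- `H⁰` of a further base change `A' → K` of `L'` agrees with `H⁰` of the base change of `L`. -/
noncomputable def H0BCLiftEquiv (h : LiftData L L') : L'.H0BC K ≃ₗ[K] L.H0BC K :=
  kerEquivOfArrowIso (L'.d.baseChange K) (L.d.baseChange K) (liftBC0 K h) (liftBC1 K h)
    (dBC_liftBC0 K h)

theorem subsingleton_H1BC_lift_iff (h : LiftData L L') :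
    Subsingleton (L'.H1BC K) ↔ Subsingleton (L.H1BC K) :=
  (H1BCLiftEquiv K h).toEquiv.subsingleton_congr

theorem finrank_H1BC_lift (h : LiftData L L') :
    Module.finrank K (L'.H1BC K) = Module.finrank K (L.H1BC K) :=
  (H1BCLiftEquiv K h).finrank_eq

theorem finrank_H0BC_lift (h : LiftData L L') :
    Module.finrank K (L'.H0BC K) = Module.finrank K (L.H0BC K) :=
  (H0BCLiftEquiv K h).finrank_eq

end Further

/-- **Base change of the `H¹`-vanishing locus**: for a base change `L'` of `L` along `A → A'`,
the locus of `L'` is the preimage of the locus of `L` under `Spec A' → Spec A`. -/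
theorem h1Locus_lift (h : LiftData L L') :
    h1Locus L' = PrimeSpectrum.comap (algebraMap A A') ⁻¹' h1Locus L := by
  ext p'
  rw [Set.mem_preimage, mem_h1Locus]
  let _ : Algebra A p'.asIdeal.ResidueField :=
    ((algebraMap A' p'.asIdeal.ResidueField).comp (algebraMap A A')).toAlgebra
  have : IsScalarTower A A' p'.asIdeal.ResidueField := IsScalarTower.of_algebraMap_eq fun _ => rfl
  rw [subsingleton_H1BC_lift_iff p'.asIdeal.ResidueField h]
  refine (mem_h1Locus_iff_of_field L (p'.comap (algebraMap A A')) p'.asIdeal.ResidueField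
    ?_).symm
  ext r
  rw [RingHom.mem_ker, IsScalarTower.algebraMap_apply A A' p'.asIdeal.ResidueField,
    Ideal.algebraMap_residueField_eq_zero]
  rfl

end Lift

/-! ### The concrete case of tensor rings `A ⊗[k] B` (instances of `BaseChange75`) -/

section Tensor

open JSmooth85Alg
open scoped Fermat.Agent.Jac.BaseChange75

universe u

variable {k B0 B1 B01 : Type u} [CommRing k] [CommRing B0] [CommRing B1] [CommRing B01]
  [Algebra k B0] [Algebra k B1] [Algebra k B01] [Algebra B0 B01] [Algebra B1 B01]
  [IsScalarTower k B0 B01] [IsScalarTower k B1 B01]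
  {A A' : Type u} [CommRing A] [CommRing A'] [Algebra k A] [Algebra k A'] [Algebra A A']
  [IsScalarTower k A A']
  {L : QC2 A (A ⊗[k] B0) (A ⊗[k] B1) (A ⊗[k] B01)}
  {L' : QC2 A' (A' ⊗[k] B0) (A' ⊗[k] B1) (A' ⊗[k] B01)}

/-- Base change of the `H¹`-vanishing locus for two-chart modules over the tensor rings. -/
theorem h1Locus_lift_tensor (h : LiftData L L') :
    h1Locus L' = PrimeSpectrum.comap (algebraMap A A') ⁻¹' h1Locus L :=
  have := BaseChange75.towerLeft' k A A' B0
  have := BaseChange75.towerLeft' k A A' B1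
  have := BaseChange75.towerLeft' k A A' B01
  h1Locus_lift h

end Tensor

end Fermat.Agent.Jac.Cover12.H1Locus
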