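/-
Programme JAC (S25), brick A6 Cover (helper12), file 4: the fibrewise Euler characteristic
`QC2.chi` commutes with base change (in the cube setting of `JSmooth85Alg.LiftData` with pushout
faces, see `Cover12/H1Locus.lean`), and can be computed on any field point.
No finiteness hypotheses.
-/
import Fermat.Agent.Jac.Cover12.H1Locus
import Fermat.Agent.Jac.SmallClasses42Field

set_option autoImplicit false
set_option linter.unusedSectionVars false

open TensorProduct

namespace Fermat.Agent.Jac.Cover12.ChiLift

open Fermat.Agent.Jac.Cover12.H1Locus JSmooth85Alg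

universe u

section FieldPoint

variable {A R0 R1 R01 : Type u} [CommRing A] [CommRing R0] [CommRing R1] [CommRing R01]
  [Algebra A R0] [Algebra A R1] [Algebra A R01] [Algebra R0 R01] [Algebra R1 R01]
  [IsScalarTower A R0 R01] [IsScalarTower A R1 R01]

/-- The residue field of the kernel `p` of `A → K` embeds into the field `K`; packaged as an
`A`-algebra homomorphism. -/
noncomputable def residueFieldHom (p : PrimeSpectrum A) (K : Type u) [Field K] [Algebra A K]
    (hp : RingHom.ker (algebraMap A K) = p.asIdeal) : p.asIdeal.ResidueField →ₐ[A] K :=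
  Ideal.ResidueField.liftₐ p.asIdeal (Algebra.ofId A K)
    (by
      intro r hr
      rw [← hp] at hr
      exact hr)
    (by
      intro r hr
      rw [Submonoid.mem_comap]
      show IsUnit (algebraMap A K r)
      rw [isUnit_iff_ne_zero]
      intro h0
      apply hr
      rw [← hp]
      exact h0)

/-- **Field-point formula for `χ`**: the fibrewise Euler characteristic at `p` can be computed on
any field `K` over `A` whose structure map has kernel `p`. -/
theorem chi_eq_chiField (L : QC2 A R0 R1 R01) (p : PrimeSpectrum A) (K : Type u) [Field K]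
    [Algebra A K] (hp : RingHom.ker (algebraMap A K) = p.asIdeal) :
    L.chi p = L.chiField K := by
  let f := residueFieldHom p K hp
  let _ : Algebra p.asIdeal.ResidueField K := f.toRingHom.toAlgebra
  have : IsScalarTower A p.asIdeal.ResidueField K :=
    IsScalarTower.of_algebraMap_eq fun r => (f.commutes r).symm
  exact (SmallClasses42Field.chiField_eq L p.asIdeal.ResidueField K).symm

/-- Field-point formula, in terms of the point `Spec K → Spec A`. -/
theorem chi_comap_eq_chiField (L : QC2 A R0 R1 R01) (K : Type u) [Field K] [Algebra A K]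
    (q : PrimeSpectrum K) : L.chi (q.comap (algebraMap A K)) = L.chiField K := by
  refine chi_eq_chiField L _ K ?_
  ext r
  have hq : q.asIdeal = ⊥ := by
    rcases Ideal.eq_bot_or_top q.asIdeal with h | h
    · exact h
    · exact absurd h q.2.ne_top
  show algebraMap A K r = 0 ↔ algebraMap A K r ∈ q.asIdeal
  rw [hq, Ideal.mem_bot]

end FieldPoint

section Lift

variable {A R0 R1 R01 A' R0' R1' R01' : Type u}
  [CommRing A] [CommRing R0] [CommRing R1] [CommRing R01]
  [Algebra A R0] [Algebra A R1] [Algebra A R01] [Algebra R0 R01] [Algebra R1 R01]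
  [IsScalarTower A R0 R01] [IsScalarTower A R1 R01]
  [CommRing A'] [CommRing R0'] [CommRing R1'] [CommRing R01']
  [Algebra A' R0'] [Algebra A' R1'] [Algebra A' R01'] [Algebra R0' R01'] [Algebra R1' R01']
  [IsScalarTower A' R0' R01'] [IsScalarTower A' R1' R01']
  [Algebra R0 R0'] [Algebra R1 R1'] [Algebra R01 R01']
  [Algebra A A'] [Algebra A R0'] [Algebra A R1'] [Algebra A R01']
  [IsScalarTower A A' R0'] [IsScalarTower A R0 R0'] [Algebra.IsPushout A A' R0 R0']
  [IsScalarTower A A' R1'] [IsScalarTower A R1 R1'] [Algebra.IsPushout A A' R1 R1']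
  [IsScalarTower A A' R01'] [IsScalarTower A R01 R01'] [Algebra.IsPushout A A' R01 R01']
  {L : QC2 A R0 R1 R01} {L' : QC2 A' R0' R1' R01'}

/-- The Euler characteristic of a field fibre of a base change `L'` of `L` is that of `L`. -/
theorem chiField_lift (h : LiftData L L') (K : Type u) [Field K] [Algebra A' K] [Algebra A K]
    [IsScalarTower A A' K] : L'.chiField K = L.chiField K := by
  rw [QC2.chiField, QC2.chiField, finrank_H0BC_lift K h, finrank_H1BC_lift K h]

/-- **Base change of `χ`**: `χ(L')(p') = χ(L)(p' ∩ A)` for a base change `L'` of `L`. -/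
theorem chi_lift (h : LiftData L L') (p' : PrimeSpectrum A') :
    L'.chi p' = L.chi (p'.comap (algebraMap A A')) := by
  let _ : Algebra A p'.asIdeal.ResidueField :=
    ((algebraMap A' p'.asIdeal.ResidueField).comp (algebraMap A A')).toAlgebra
  have : IsScalarTower A A' p'.asIdeal.ResidueField := IsScalarTower.of_algebraMap_eq fun _ => rfl
  rw [QC2.chi, chiField_lift h p'.asIdeal.ResidueField]
  refine (chi_eq_chiField L (p'.comap (algebraMap A A')) p'.asIdeal.ResidueField ?_).symm
  ext r
  rw [RingHom.mem_ker, IsScalarTower.algebraMap_apply A A' p'.asIdeal.ResidueField,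
    Ideal.algebraMap_residueField_eq_zero]
  rfl

end Lift

/-! ### The concrete case of tensor rings -/

section Tensor

open scoped Fermat.Agent.Jac.BaseChange75

variable {k B0 B1 B01 : Type u} [CommRing k] [CommRing B0] [CommRing B1] [CommRing B01]
  [Algebra k B0] [Algebra k B1] [Algebra k B01] [Algebra B0 B01] [Algebra B1 B01]
  [IsScalarTower k B0 B01] [IsScalarTower k B1 B01]
  {A A' : Type u} [CommRing A] [CommRing A'] [Algebra k A] [Algebra k A'] [Algebra A A']
  [IsScalarTower k A A']
  {L : QC2 A (A ⊗[k] B0) (A ⊗[k] B1) (A ⊗[k] B01)}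
  {L' : QC2 A' (A' ⊗[k] B0) (A' ⊗[k] B1) (A' ⊗[k] B01)}

theorem chi_lift_tensor (h : LiftData L L') (p' : PrimeSpectrum A') :
    L'.chi p' = L.chi (p'.comap (algebraMap A A')) :=
  have := BaseChange75.towerLeft' k A A' B0
  have := BaseChange75.towerLeft' k A A' B1
  have := BaseChange75.towerLeft' k A A' B01
  chi_lift h p'

theorem chiField_lift_tensor (h : LiftData L L') (K : Type u) [Field K] [Algebra A' K]
    [Algebra A K] [IsScalarTower A A' K] : L'.chiField K = L.chiField K :=
  have := BaseChange75.towerLeft' k A A' B0
  have := BaseChange75.towerLeft' k A A' B1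
  have := BaseChange75.towerLeft' k A A' B01
  chiField_lift h K

theorem subsingleton_H1BC_lift_tensor_iff (h : LiftData L L') (K : Type u) [CommRing K]
    [Algebra A' K] [Algebra A K] [IsScalarTower A A' K] :
    Subsingleton (L'.H1BC K) ↔ Subsingleton (L.H1BC K) :=
  have := BaseChange75.towerLeft' k A A' B0
  have := BaseChange75.towerLeft' k A A' B1
  have := BaseChange75.towerLeft' k A A' B01
  subsingleton_H1BC_lift_iff K h

theorem subsingleton_H1_lift_tensor_iff (h : LiftData L L') :
    Subsingleton L'.H1 ↔ Subsingleton (L.H1BC A') :=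
  have := BaseChange75.towerLeft' k A A' B0
  have := BaseChange75.towerLeft' k A A' B1
  have := BaseChange75.towerLeft' k A A' B01
  subsingleton_H1_lift_iff h

end Tensor

end Fermat.Agent.Jac.Cover12.ChiLift
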