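/-
Programme JAC (S25), brick A6 Cover (helper12), file 5: commutation isomorphisms for the
operations on two-chart modules used in the covering lemma:

* `isoOfRangeEq` : two sub-objects of `L` (injective morphisms into `L`) with the same ranges on
  both charts are isomorphic;
* `downTwistCongr` : `L ≅ L'` implies `L(-D) ≅ L'(-D)`;
* `downTwistTwistIso` : `L(m)(-D) ≅ L(-D)(m)` (twist at infinity `QC2.twist`);
* `downTwistComm` : `L(-D)(-E) ≅ L(-E)(-D)`;
* `downTwistListCongr`, `downTwistListComm`, `downTwistListTwistIso` : the same for the iterated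
  down-twist `RiemannCover82.Cover.downTwistList`.
-/
import Fermat.Agent.Jac.LineOps39.Section
import Fermat.Agent.Jac.AbelJacobi73.Factor
import Fermat.Agent.Jac.RiemannCover82.Cover

set_option autoImplicit false
set_option linter.unusedSectionVars false

universe u

open TensorProduct

namespace Fermat.Agent.Jac.Cover12.TwistComm

open Fermat.Agent.Jac Fermat.Agent.Jac.LineOps39 Fermat.Agent.Jac.RiemannCover82.Cover

variable {A R0 R1 R01 : Type u} [CommRing A] [CommRing R0] [CommRing R1] [CommRing R01]
  [Algebra A R0] [Algebra A R1] [Algebra A R01] [Algebra R0 R01] [Algebra R1 R01]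
  [IsScalarTower A R0 R01] [IsScalarTower A R1 R01]

/-! ### Sub-objects with the same range -/

section RangeEq

variable {R : Type*} [CommRing R] {X X' Y : Type*} [AddCommGroup X] [AddCommGroup X']
  [AddCommGroup Y] [Module R X] [Module R X'] [Module R Y]

/-- Two injective linear maps with the same range have isomorphic sources. -/
noncomputable def equivOfRangeEq (f : X →ₗ[R] Y) (g : X' →ₗ[R] Y) (hf : Function.Injective f)
    (hg : Function.Injective g) (h : LinearMap.range f = LinearMap.range g) : X ≃ₗ[R] X' :=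
  (LinearEquiv.ofInjective f hf).trans
    ((LinearEquiv.ofEq _ _ h).trans (LinearEquiv.ofInjective g hg).symm)

theorem apply_equivOfRangeEq (f : X →ₗ[R] Y) (g : X' →ₗ[R] Y) (hf : Function.Injective f)
    (hg : Function.Injective g) (h : LinearMap.range f = LinearMap.range g) (x : X) :
    g (equivOfRangeEq f g hf hg h x) = f x := by
  unfold equivOfRangeEq
  rw [LinearEquiv.trans_apply, LinearEquiv.trans_apply]
  have := (LinearEquiv.ofInjective g hg).apply_symm_apply
    ((LinearEquiv.ofEq _ _ h) ((LinearEquiv.ofInjective f hf) x))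
  have h2 := congrArg Subtype.val this
  rw [LinearEquiv.ofInjective_apply] at h2
  rw [h2]
  rfl

end RangeEq

/-- Two sub-objects of a two-chart module with the same ranges on the two charts are
isomorphic. -/
noncomputable def isoOfRangeEq (c : TwoChart A R0 R1 R01) {M M' L : QC2 A R0 R1 R01}
    (f : QC2.Hom M L) (g : QC2.Hom M' L)
    (hf0 : Function.Injective f.f0) (hf1 : Function.Injective f.f1)
    (hg0 : Function.Injective g.f0) (hg1 : Function.Injective g.f1)
    (h0 : LinearMap.range f.f0 = LinearMap.range g.f0)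
    (h1 : LinearMap.range f.f1 = LinearMap.range g.f1) : QC2.Iso M M' where
  e0 := equivOfRangeEq f.f0 g.f0 hf0 hg0 h0
  e1 := equivOfRangeEq f.f1 g.f1 hf1 hg1 h1
  e01 := equivOfRangeEq f.f01 g.f01 (f01_injective_of c f hf0) (f01_injective_of c g hg0)
    (by rw [← span_r0_range_f0 f, ← span_r0_range_f0 g, h0])
  comm0 x := by
    apply f01_injective_of c g hg0
    rw [apply_equivOfRangeEq, g.comm0, apply_equivOfRangeEq, f.comm0]
  comm1 x := by
    apply f01_injective_of c g hg0
    rw [apply_equivOfRangeEq, g.comm1, apply_equivOfRangeEq, f.comm1]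

/-! ### Down-twists -/

section DownTwist

variable (c : TwoChart A R0 R1 R01)

/-- The image of `I • ⊤` under a linear equivalence is `I • ⊤`. -/
theorem map_smul_top_equiv {R : Type*} [CommRing R] {X Y : Type*} [AddCommGroup X]
    [AddCommGroup Y] [Module R X] [Module R Y] (I : Ideal R) (e : X ≃ₗ[R] Y) :
    Submodule.map (e : X →ₗ[R] Y) (I • (⊤ : Submodule R X)) = I • (⊤ : Submodule R Y) := by
  rw [Submodule.map_smul'', Submodule.map_top, LinearEquiv.range]

/-- `L ≅ L'` implies `L(-D) ≅ L'(-D)`. -/
noncomputable def downTwistCongr {L L' : QC2 A R0 R1 R01} (i : QC2.Iso L L')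
    (D : IdealPair R0 R1 R01) : QC2.Iso (downTwist c L D) (downTwist c L' D) :=
  isoOfRangeEq c (homComp (isoHom i) (downTwistHom c L D)) (downTwistHom c L' D)
    (fun x y h => Subtype.val_injective (i.e0.injective h))
    (fun x y h => Subtype.val_injective (i.e1.injective h))
    Subtype.val_injective Subtype.val_injective
    (by
      show LinearMap.range ((i.e0 : L.N0 →ₗ[R0] L'.N0).comp
        (D.I0 • (⊤ : Submodule R0 L.N0)).subtype) =
        LinearMap.range (D.I0 • (⊤ : Submodule R0 L'.N0)).subtype
      rw [LinearMap.range_comp, Submodule.range_subtype, Submodule.range_subtype,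
        map_smul_top_equiv])
    (by
      show LinearMap.range ((i.e1 : L.N1 →ₗ[R1] L'.N1).comp
        (D.I1 • (⊤ : Submodule R1 L.N1)).subtype) =
        LinearMap.range (D.I1 • (⊤ : Submodule R1 L'.N1)).subtype
      rw [LinearMap.range_comp, Submodule.range_subtype, Submodule.range_subtype,
        map_smul_top_equiv])

/-- The inclusion `L(-D)(m) → L(m)`. -/
def twistDownTwistHom (L : QC2 A R0 R1 R01) (D : IdealPair R0 R1 R01) (m : ℤ) :
    QC2.Hom ((downTwist c L D).twist c m) (L.twist c m) where
  f0 := (downTwistHom c L D).f0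
  f1 := (downTwistHom c L D).f1
  f01 := (downTwistHom c L D).f01
  comm0 x := (downTwistHom c L D).comm0 x
  comm1 x := by
    show (downTwistHom c L D).f01 (((P1CohChi.tUnit c ^ m : R01ˣ) : R01) •
      (downTwist c L D).r1 x) =
      ((P1CohChi.tUnit c ^ m : R01ˣ) : R01) • L.r1 ((downTwistHom c L D).f1 x)
    rw [map_smul, (downTwistHom c L D).comm1]

/-- `L(m)(-D) ≅ L(-D)(m)`. -/
noncomputable def downTwistTwistIso (L : QC2 A R0 R1 R01) (D : IdealPair R0 R1 R01) (m : ℤ) :
    QC2.Iso (downTwist c (L.twist c m) D) ((downTwist c L D).twist c m) :=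
  isoOfRangeEq c (downTwistHom c (L.twist c m) D) (twistDownTwistHom c L D m)
    Subtype.val_injective Subtype.val_injective Subtype.val_injective Subtype.val_injective
    rfl rfl

/-- `L(-D)(-E) ≅ L(-E)(-D)`. -/
noncomputable def downTwistComm (L : QC2 A R0 R1 R01) (D E : IdealPair R0 R1 R01) :
    QC2.Iso (downTwist c (downTwist c L D) E) (downTwist c (downTwist c L E) D) :=
  have h : D.mul E = E.mul D :=
    AbelJacobi73.idealPair_ext (mul_comm D.I0 E.I0) (mul_comm D.I1 E.I1)
  isoTrans (AbelJacobi73.downTwistMulIso c L D E)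
    (isoTrans (h ▸ isoRefl (downTwist c L (D.mul E)))
      (isoSymm (AbelJacobi73.downTwistMulIso c L E D)))

/-- `L ≅ L'` implies `L(-Σ l) ≅ L'(-Σ l)`. -/
noncomputable def downTwistListCongr :
    ∀ (l : List (Ideal R0)) {L L' : QC2 A R0 R1 R01}, QC2.Iso L L' →
      QC2.Iso (downTwistList c L l) (downTwistList c L' l)
  | [], _, _, i => i
  | m :: l, _, _, i => downTwistListCongr l (downTwistCongr c i (IdealPair.ofChart0 c m))

/-- `L(-Σ l)(-D) ≅ L(-D)(-Σ l)`. -/
noncomputable def downTwistListComm (D : IdealPair R0 R1 R01) :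
    ∀ (l : List (Ideal R0)) (L : QC2 A R0 R1 R01),
      QC2.Iso (downTwist c (downTwistList c L l) D) (downTwistList c (downTwist c L D) l)
  | [], _ => isoRefl _
  | m :: l, L =>
    isoTrans (downTwistListComm D l (downTwist c L (IdealPair.ofChart0 c m)))
      (downTwistListCongr c l (downTwistComm c L (IdealPair.ofChart0 c m) D))

/-- `L(m)(-D)(-Σ l) ≅ L(-D)(m)(-Σ l)`. -/
noncomputable def downTwistListTwistIso (L : QC2 A R0 R1 R01) (D : IdealPair R0 R1 R01) (m : ℤ)
    (l : List (Ideal R0)) :
    QC2.Iso (downTwist c (downTwistList c (L.twist c m) l) D)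
      (downTwistList c ((downTwist c L D).twist c m) l) :=
  isoTrans (downTwistListComm c D l (L.twist c m))
    (downTwistListCongr c l (downTwistTwistIso c L D m))

end DownTwist

/-! ### Transport of cohomology vanishing along isomorphisms -/

theorem H0_eq_bot_of_iso {L M : QC2 A R0 R1 R01} (i : QC2.Iso L M) (h : L.H0 = ⊥) :
    M.H0 = ⊥ := by
  rw [Submodule.eq_bot_iff] at h ⊢
  intro x hx
  have hx' : (isoH0 i).symm ⟨x, hx⟩ = 0 := by
    apply Subtype.ext
    exact h _ ((isoH0 i).symm ⟨x, hx⟩).2
  have := congrArg (isoH0 i) hx'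
  rw [LinearEquiv.apply_symm_apply, map_zero] at this
  exact congrArg Subtype.val this

theorem subsingleton_H1_of_iso {L M : QC2 A R0 R1 R01} (i : QC2.Iso L M)
    (h : Subsingleton L.H1) : Subsingleton M.H1 :=
  (isoH1 i).symm.toEquiv.subsingleton

end Fermat.Agent.Jac.Cover12.TwistComm
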