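/-
Programme JAC (S25), brick A6 Cover (helper12), file 2: the chart locus of a Hilbert point.

`k` a commutative ring, `B` a `k`-algebra, `A` a `k`-algebra, `I` an ideal of `A ⊗[k] B` such that
`Q := (A ⊗ B)/I` is a finite projective `A`-module, `v : Fin g → B`.  With helper87's
`HilbChart87.HilbV k v A` (ideals for which `θ_v : A^g → Q`, `c ↦ ∑ c_i (1 ⊗ v_i)`, is bijective):

* `chartLocus v I` : the set of primes `p` of `A` such that `κ(p) ⊗ θ_v` is bijective;
* `isOpen_chartLocus` : it is open;
* `map_mem_hilbV_iff_bijective_baseChange` : `I^e ∈ Hilb_v(A')` iff `A' ⊗ θ_v` is bijective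
  (via `quotEquiv : A' ⊗_A (A ⊗ B)/I ≃ (A' ⊗ B)/I^e`);
* `map_mem_hilbV_iff` / `map_mem_hilbV_iff_algHom` : `I^e ∈ Hilb_v(A')` iff `Spec A' → Spec A`
  lands in the chart locus (relative representability of `Hilb_v` by an open immersion);
* `mem_chartLocus_iff_exists_away` : `p ∈ chartLocus v I` iff `I A_f ∈ Hilb_v(A_f)` for some `f ∉ p`;
* `exists_mem_chartLocus` : the chart loci cover: for every `p` there is `v : Fin g → B`
  (`g` = rank of `Q` at `p`) with `p ∈ chartLocus v I`.
-/
import Mathlib
import Fermat.Agent.Jac.Cover12.BijLocus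
import Fermat.Agent.Jac.HilbChart87.Main

set_option autoImplicit false

open TensorProduct
open Fermat.Agent.Jac.HilbChart87 Fermat.Agent.Jac.Cover12.BijLocus

namespace Fermat.Agent.Jac.Cover12.HilbOpen
universe u v w w'
variable {k : Type u} [CommRing k] {B : Type v} [CommRing B] [Algebra k B] {g : ℕ} (v : Fin g → B)
  {A : Type w} [CommRing A] [Algebra k A] (I : Ideal (A ⊗[k] B))

/-- `θ_v : A^g → (A ⊗ B)/I`. -/
noncomputable def theta : (Fin g → A) →ₗ[A] (A ⊗[k] B) ⧸ I :=
  (Ideal.Quotient.mkₐ A I).toLinearMap ∘ₗ vmap k v A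

theorem theta_apply (c : Fin g → A) : theta v I c = Ideal.Quotient.mk I (vmap k v A c) := rfl

theorem mem_hilbV_iff : I ∈ HilbV k v A ↔ Function.Bijective (theta v I) := Iff.rfl

variable (A' : Type w') [CommRing A'] [Algebra k A'] [Algebra A A'] [IsScalarTower k A A']

/-- the structure map as a `k`-algebra map -/
noncomputable abbrev str : A →ₐ[k] A' := IsScalarTower.toAlgHom k A A'

theorem cancel_includeRight (z : A ⊗[k] B) :
    Algebra.TensorProduct.cancelBaseChange k A A' A' B
      (Algebra.TensorProduct.includeRight (R := A) (A := A') z) = tmap (str (k := k) A') z := by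
  induction z using TensorProduct.induction_on with
  | zero => simp
  | tmul a b =>
    rw [Algebra.TensorProduct.includeRight_apply, Algebra.TensorProduct.cancelBaseChange_tmul,
      tmap_tmul, Algebra.smul_def, mul_one]
    rfl
  | add x y hx hy => rw [map_add, map_add, map_add, hx, hy]

theorem map_map_eq :
    Ideal.map (tmap (str (k := k) A')) I =
      Ideal.map ((Algebra.TensorProduct.cancelBaseChange k A A' A' B : _ ≃ₐ[A'] _) :
        A' ⊗[A] (A ⊗[k] B) →+* A' ⊗[k] B)
        (Ideal.map (Algebra.TensorProduct.includeRight (R := A) (A := A')) I) := by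
  apply le_antisymm
  · rw [Ideal.map_le_iff_le_comap]
    intro z hz
    rw [Ideal.mem_comap, ← cancel_includeRight]
    exact Ideal.mem_map_of_mem _ (Ideal.mem_map_of_mem _ hz)
  · rw [Ideal.map_le_iff_le_comap, Ideal.map_le_iff_le_comap]
    intro z hz
    rw [Ideal.mem_comap, Ideal.mem_comap]
    have := cancel_includeRight (k := k) A' z
    rw [RingHom.coe_coe, this]
    exact Ideal.mem_map_of_mem _ hz

/-- `A' ⊗_A (A ⊗ B)/I ≃ (A' ⊗ B)/I^e`. -/
noncomputable def quotEquiv :
    A' ⊗[A] ((A ⊗[k] B) ⧸ I) ≃ₐ[A'] (A' ⊗[k] B) ⧸ Ideal.map (tmap (str (k := k) A')) I :=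
  (Algebra.TensorProduct.tensorQuotientEquiv (R := A) A' (A ⊗[k] B) A' I).trans
    (Ideal.quotientEquivAlg _ _ (Algebra.TensorProduct.cancelBaseChange k A A' A' B)
      (map_map_eq I A'))

theorem cancel_tmul (a' : A') (z : A ⊗[k] B) :
    Algebra.TensorProduct.cancelBaseChange k A A' A' B (a' ⊗ₜ[A] z) =
      a' • tmap (str (k := k) A') z := by
  have h : a' ⊗ₜ[A] z = a' • Algebra.TensorProduct.includeRight (R := A) (A := A') z := by
    rw [Algebra.TensorProduct.includeRight_apply, TensorProduct.smul_tmul', smul_eq_mul, mul_one]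
  rw [h, map_smul, cancel_includeRight]

theorem quotEquiv_tmul (a' : A') (z : A ⊗[k] B) :
    quotEquiv I A' (a' ⊗ₜ[A] Ideal.Quotient.mk I z) =
      Ideal.Quotient.mk _ (a' • tmap (str (k := k) A') z) := by
  rw [← cancel_tmul]
  rfl

theorem vmap_single (A : Type w) [CommRing A] [Algebra k A] (i : Fin g) (a : A) :
    vmap k v A (Pi.single i a) = a ⊗ₜ[k] v i := by
  rw [vmap_apply, Finset.sum_eq_single i]
  · rw [Pi.single_eq_same]
  · intro j _ hji
    rw [Pi.single_eq_of_ne hji, TensorProduct.zero_tmul]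
  · intro h
    exact absurd (Finset.mem_univ i) h

/-- the comparison of `θ_v` for the extended ideal with the base change of `θ_v`. -/
theorem theta_map_eq :
    theta v (Ideal.map (tmap (str (k := k) A')) I) =
      (quotEquiv I A').toLinearEquiv.toLinearMap ∘ₗ (theta v I).baseChange A' ∘ₗ
        (TensorProduct.piScalarRight A A' A' (Fin g)).symm.toLinearMap := by
  apply LinearMap.pi_ext
  intro i a'
  have h1 : ((TensorProduct.piScalarRight A A' A' (Fin g)).symm.toLinearMap) (Pi.single i a') =
      a' ⊗ₜ[A] (Pi.single i (1 : A) : Fin g → A) :=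
    TensorProduct.piScalarRight_symm_single A A' A' (Fin g) a' i
  rw [LinearMap.comp_apply, LinearMap.comp_apply, h1, LinearMap.baseChange_tmul, theta_apply,
    theta_apply, vmap_single, vmap_single]
  show _ = quotEquiv I A' (a' ⊗ₜ[A] Ideal.Quotient.mk I ((1 : A) ⊗ₜ[k] v i))
  rw [quotEquiv_tmul, tmap_tmul, map_one, TensorProduct.smul_tmul', smul_eq_mul, mul_one]

/-- **Key lemma.**  The extended ideal is a point of `Hilb_v` iff the base change of `θ_v` is
bijective. -/
theorem map_mem_hilbV_iff_bijective_baseChange :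
    Ideal.map (tmap (str (k := k) A')) I ∈ HilbV k v A' ↔
      Function.Bijective ((theta v I).baseChange A') := by
  rw [mem_hilbV_iff, theta_map_eq]
  simp only [LinearMap.coe_comp, LinearEquiv.coe_coe]
  rw [Function.Bijective.of_comp_iff' (LinearEquiv.bijective _),
    Function.Bijective.of_comp_iff _ (LinearEquiv.bijective _)]

/-! ### The chart locus -/

/-- The set of primes `p` of `A` at which `v` induces a basis of the fibre of `(A ⊗ B)/I`. -/
def chartLocus : Set (PrimeSpectrum A) := bijLocus (theta v I)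

theorem mem_chartLocus (p : PrimeSpectrum A) :
    p ∈ chartLocus v I ↔
      Function.Bijective ((theta v I).baseChange p.asIdeal.ResidueField) := Iff.rfl

section Projective

variable [Module.Finite A ((A ⊗[k] B) ⧸ I)] [Module.Projective A ((A ⊗[k] B) ⧸ I)]

/-- The chart locus is open. -/
theorem isOpen_chartLocus : IsOpen (chartLocus v I) := isOpen_bijLocus _

/-- **Relative representability** (instance form): for an `A`-algebra `A'`, the extended ideal is
a point of `Hilb_v(A')` iff `Spec A' → Spec A` lands in the chart locus. -/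
theorem map_mem_hilbV_iff :
    Ideal.map (tmap (str (k := k) A')) I ∈ HilbV k v A' ↔
      ∀ p' : PrimeSpectrum A', p'.comap (algebraMap A A') ∈ chartLocus v I := by
  rw [map_mem_hilbV_iff_bijective_baseChange, bijective_iff_bijLocus_eq_univ,
    Set.eq_univ_iff_forall]
  refine forall_congr' fun p' => ?_
  rw [mem_bijLocus_baseChange_iff]
  rfl

/-- `p` lies in the chart locus iff `I` becomes a point of `Hilb_v` over some `A[1/f]`, `f ∉ p`. -/
theorem mem_chartLocus_iff_exists_away (p : PrimeSpectrum A) :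
    p ∈ chartLocus v I ↔
      ∃ f : A, f ∉ p.asIdeal ∧
        Ideal.map (tmap (str (k := k) (Localization.Away f))) I ∈
          HilbV k v (Localization.Away f) := by
  unfold chartLocus
  rw [mem_bijLocus_iff_exists_away]
  refine exists_congr fun f => and_congr_right fun _ => ?_
  rw [map_mem_hilbV_iff_bijective_baseChange]

end Projective

/-- **Relative representability** (`AlgHom` form). -/
theorem map_mem_hilbV_iff_algHom [Module.Finite A ((A ⊗[k] B) ⧸ I)]
    [Module.Projective A ((A ⊗[k] B) ⧸ I)] {A' : Type w'} [CommRing A'] [Algebra k A']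
    (ψ : A →ₐ[k] A') :
    Ideal.map (tmap ψ) I ∈ HilbV k v A' ↔
      ∀ p' : PrimeSpectrum A', p'.comap (ψ : A →+* A') ∈ chartLocus v I := by
  let _ : Algebra A A' := (ψ : A →+* A').toAlgebra
  have : IsScalarTower k A A' := IsScalarTower.of_algebraMap_eq fun r => (ψ.commutes r).symm
  have hψ : str (k := k) (A := A) A' = ψ := AlgHom.ext fun _ => rfl
  have := map_mem_hilbV_iff v I A'
  rw [hψ] at this
  exact this

/-! ### Covering -/

section Cover

/-- The classes `1 ⊗ [1 ⊗ b]`, `b : B`, span the fibre `K ⊗_A (A ⊗ B)/I` over `K`. -/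
theorem span_fibre_eq_top (K : Type*) [Field K] [Algebra A K] :
    Submodule.span K (Set.range fun b : B =>
      (1 : K) ⊗ₜ[A] (Ideal.Quotient.mk I ((1 : A) ⊗ₜ[k] b))) = ⊤ := by
  have key : ∀ x : K ⊗[A] ((A ⊗[k] B) ⧸ I), x ∈ Submodule.span K (Set.range fun b : B =>
      (1 : K) ⊗ₜ[A] (Ideal.Quotient.mk I ((1 : A) ⊗ₜ[k] b))) := by
    intro x
    induction x using TensorProduct.induction_on with
    | zero => exact Submodule.zero_mem _
    | tmul c q =>
      obtain ⟨z, rfl⟩ := Ideal.Quotient.mk_surjective q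
      induction z using TensorProduct.induction_on with
      | zero =>
        rw [map_zero, TensorProduct.tmul_zero]
        exact Submodule.zero_mem _
      | tmul a b =>
        have h0 : a ⊗ₜ[k] b = a • ((1 : A) ⊗ₜ[k] b) := by
          rw [TensorProduct.smul_tmul', smul_eq_mul, mul_one]
        have h1 : Ideal.Quotient.mk I (a ⊗ₜ[k] b) =
            a • Ideal.Quotient.mk I ((1 : A) ⊗ₜ[k] b) := by
          rw [h0]
          exact map_smul (Ideal.Quotient.mkₐ A I) a _
        have h2 : c ⊗ₜ[A] (a • Ideal.Quotient.mk I ((1 : A) ⊗ₜ[k] b)) =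
            (a • c) • ((1 : K) ⊗ₜ[A] Ideal.Quotient.mk I ((1 : A) ⊗ₜ[k] b)) := by
          rw [TensorProduct.tmul_smul]
          rw [TensorProduct.smul_tmul' (a • c), smul_eq_mul, mul_one, TensorProduct.smul_tmul']
        rw [h1, h2]
        exact Submodule.smul_mem _ _ (Submodule.subset_span ⟨b, rfl⟩)
      | add z z' hz hz' =>
        rw [map_add, TensorProduct.tmul_add]
        exact Submodule.add_mem _ hz hz'
    | add x y hx hy => exact Submodule.add_mem _ hx hy
  exact eq_top_iff.mpr fun x _ => key x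

variable [Module.Finite A ((A ⊗[k] B) ⧸ I)]

/-- **Covering.**  For every prime `p` of `A` there is a family `v : Fin g → B`, `g` the dimension
of the fibre of `(A ⊗ B)/I` at `p`, such that `p` lies in the chart locus of `v`. -/
theorem exists_mem_chartLocus (p : PrimeSpectrum A) {g : ℕ}
    (hg : Module.finrank p.asIdeal.ResidueField
      (p.asIdeal.ResidueField ⊗[A] ((A ⊗[k] B) ⧸ I)) = g) :
    ∃ v : Fin g → B, p ∈ chartLocus v I := by
  classical
  set K := p.asIdeal.ResidueField with hK
  set φ : B → K ⊗[A] ((A ⊗[k] B) ⧸ I) := fun b =>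
    (1 : K) ⊗ₜ[A] (Ideal.Quotient.mk I ((1 : A) ⊗ₜ[k] b)) with hφ
  obtain ⟨s, hsS, hspan, hli⟩ := exists_linearIndependent K (Set.range φ)
  have htop : Submodule.span K s = ⊤ := by rw [hspan]; exact span_fibre_eq_top I K
  have hfin : s.Finite := hli.setFinite
  have : Fintype s := hfin.fintype
  let bas : Module.Basis s K (K ⊗[A] ((A ⊗[k] B) ⧸ I)) :=
    Module.Basis.mk hli (by rw [Subtype.range_coe]; exact htop.ge)
  have hcard : Fintype.card s = g := by
    rw [← hg, Module.finrank_eq_card_basis bas]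
  let e : Fin g ≃ s := (Fintype.equivFinOfCardEq hcard).symm
  have hex : ∀ i : Fin g, ∃ b : B, φ b = (e i : K ⊗[A] ((A ⊗[k] B) ⧸ I)) := fun i => hsS (e i).2
  choose v hv using hex
  refine ⟨v, ?_⟩
  rw [mem_chartLocus]
  have hsurj : Function.Surjective ((theta v I).baseChange K) := by
    rw [← LinearMap.range_eq_top, eq_top_iff, ← htop, Submodule.span_le]
    intro x hx
    obtain ⟨i, hi⟩ := e.surjective ⟨x, hx⟩
    refine ⟨(1 : K) ⊗ₜ[A] (Pi.single i (1 : A) : Fin g → A), ?_⟩
    rw [LinearMap.baseChange_tmul, theta_apply, vmap_single]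
    have := hv i
    rw [hi] at this
    exact this
  have hrank : Module.finrank K (K ⊗[A] (Fin g → A)) =
      Module.finrank K (K ⊗[A] ((A ⊗[k] B) ⧸ I)) := by
    rw [hg, (TensorProduct.piScalarRight A K K (Fin g)).finrank_eq, Module.finrank_fin_fun]
  exact ⟨(LinearMap.injective_iff_surjective_of_finrank_eq_finrank hrank).mpr hsurj, hsurj⟩

/-- Covering, in terms of the rank of `(A ⊗ B)/I` at `p`. -/
theorem exists_mem_chartLocus_of_rankAtStalk [Module.Projective A ((A ⊗[k] B) ⧸ I)]
    (p : PrimeSpectrum A) {g : ℕ} (hg : Module.rankAtStalk ((A ⊗[k] B) ⧸ I) p = g) :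
    ∃ v : Fin g → B, p ∈ chartLocus v I := by
  apply exists_mem_chartLocus I p
  rw [← hg, Module.rankAtStalk_eq]

end Cover

end Fermat.Agent.Jac.Cover12.HilbOpen
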