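/-
Programme JAC (S25), brick R2a (HC-open) (helper12), file 10: an abstract LOCAL CRITERION for the
openness of a fibrewise locus `AlgChart76.fibreSet F w L`.

Let `w1`, `w` be conditions on field-valued objects of a moduli problem `F`, invariant under
isomorphism and field extension, with `w → w1`.  If the `w1`-locus of every object is open, and
the `w`-locus of every object whose `w1`-locus is everything is open, then the `w`-locus of every
object is open.  (Typical use: `w1` = cohomology vanishing, under which the remaining part of `w`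
becomes a condition on a finite projective module.)
-/
import Mathlib
import Fermat.Agent.Jac.AlgChart76.Fibrewise

set_option autoImplicit false

universe u

namespace Fermat.Agent.Jac.Cover12.FibreOpen

open Fermat.Agent.Jac.AlgChart76

variable {k : Type u} [Field k] {F : FamTheory k}

/-- A condition on field-valued objects which is invariant under isomorphism and under field
extension (in both directions). -/
structure FieldCond (F : FamTheory k) where
  /-- the condition -/
  w : ∀ {K : Type u} [Field K] [Algebra k K], F.Obj K → Prop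
  w_iso : ∀ {K : Type u} [Field K] [Algebra k K] {L L' : F.Obj K}, F.Iso L L' → w L → w L'
  w_bc : ∀ {K K' : Type u} [Field K] [Field K'] [Algebra k K] [Algebra k K'] (φ : K →ₐ[k] K')
    {L : F.Obj K} {L' : F.Obj K'}, F.BC φ L L' → (w L ↔ w L')

namespace FieldCond

variable (W : FieldCond F)

/-- The fibrewise locus of a field condition. -/
def locus {A : Type u} [CommRing A] [Algebra k A] (L : F.Obj A) : Set (PrimeSpectrum A) :=
  fibreSet F W.w L

theorem mem_locus_iff_forall {A : Type u} [CommRing A] [Algebra k A] (L : F.Obj A)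
    (p : PrimeSpectrum A) :
    p ∈ W.locus L ↔ ∀ Lp : F.Obj p.asIdeal.ResidueField, F.BC (resHom p) L Lp → W.w Lp := by
  constructor
  · rintro ⟨Lp, h, hw⟩ Lp' h'
    exact W.w_iso (F.bc_unique h h') hw
  · intro h
    obtain ⟨Lp, hLp⟩ := F.bc_exists (resHom p) L
    exact ⟨Lp, hLp, h Lp hLp⟩

/-- The fibrewise locus commutes with base change. -/
theorem locus_bc {A A' : Type u} [CommRing A] [CommRing A'] [Algebra k A] [Algebra k A']
    (φ : A →ₐ[k] A') {L : F.Obj A} {L' : F.Obj A'} (h : F.BC φ L L') :
    W.locus L' = PrimeSpectrum.comap φ.toRingHom ⁻¹' W.locus L := by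
  ext p'
  simp only [Set.mem_preimage]
  have key : ∀ (Lp : F.Obj (PrimeSpectrum.comap φ.toRingHom p').asIdeal.ResidueField)
      (Lp' : F.Obj p'.asIdeal.ResidueField),
      F.BC (resHom (PrimeSpectrum.comap φ.toRingHom p')) L Lp → F.BC (resHom p') L' Lp' →
      (W.w Lp ↔ W.w Lp') := by
    intro Lp Lp' hp hp'
    obtain ⟨Lq, hq⟩ := F.bc_exists (resMap φ p') Lp
    have h1 : F.BC ((resMap φ p').comp (resHom (PrimeSpectrum.comap φ.toRingHom p'))) L Lq :=
      F.bc_comp hp hq
    rw [resMap_comp_resHom] at h1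
    have h2 : F.BC ((resHom p').comp φ) L Lp' := F.bc_comp h hp'
    have e : F.Iso Lq Lp' := F.bc_unique h1 h2
    rw [W.w_bc (resMap φ p') hq]
    exact ⟨W.w_iso e, W.w_iso (F.iso_symm e)⟩
  constructor
  · rintro ⟨Lp', hp', hw⟩
    obtain ⟨Lp, hp⟩ := F.bc_exists (resHom (PrimeSpectrum.comap φ.toRingHom p')) L
    exact ⟨Lp, hp, (key Lp Lp' hp hp').2 hw⟩
  · rintro ⟨Lp, hp, hw⟩
    obtain ⟨Lp', hp'⟩ := F.bc_exists (resHom p') L'
    exact ⟨Lp', hp', (key Lp Lp' hp hp').1 hw⟩

end FieldCond

/-- **Local criterion for openness of a fibrewise locus.** -/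
theorem isOpen_locus_of_local (W1 W : FieldCond F)
    (hW : ∀ {K : Type u} [Field K] [Algebra k K] (L : F.Obj K), W.w L → W1.w L)
    (h1 : ∀ {A : Type u} [CommRing A] [Algebra k A] (L : F.Obj A), IsOpen (W1.locus L))
    (h2 : ∀ {A : Type u} [CommRing A] [Algebra k A] (L : F.Obj A),
      W1.locus L = Set.univ → IsOpen (W.locus L))
    {A : Type u} [CommRing A] [Algebra k A] (L : F.Obj A) : IsOpen (W.locus L) := by
  rw [isOpen_iff_forall_mem_open]
  intro p hp
  have hp1 : p ∈ W1.locus L := by
    obtain ⟨Lp, h, hw⟩ := hp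
    exact ⟨Lp, h, hW Lp hw⟩
  obtain ⟨_, ⟨f, rfl⟩, hpf, hsub⟩ :=
    PrimeSpectrum.isTopologicalBasis_basic_opens.exists_subset_of_mem_open hp1 (h1 L)
  let φ : A →ₐ[k] Localization.Away f := IsScalarTower.toAlgHom k A (Localization.Away f)
  have hφ : φ.toRingHom = algebraMap A (Localization.Away f) := rfl
  obtain ⟨Lf, hLf⟩ := F.bc_exists φ L
  have hrange : Set.range (PrimeSpectrum.comap (algebraMap A (Localization.Away f))) =
      (PrimeSpectrum.basicOpen f : Set (PrimeSpectrum A)) :=
    PrimeSpectrum.localization_away_comap_range (Localization.Away f) f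
  have huniv : W1.locus Lf = Set.univ := by
    rw [W1.locus_bc φ hLf, Set.eq_univ_iff_forall]
    intro q
    apply hsub
    show PrimeSpectrum.comap (algebraMap A (Localization.Away f)) q ∈
      (PrimeSpectrum.basicOpen f : Set (PrimeSpectrum A))
    rw [← hrange]
    exact ⟨q, rfl⟩
  have hopen : IsOpen (W.locus Lf) := h2 Lf huniv
  have hemb := PrimeSpectrum.localization_away_isOpenEmbedding (Localization.Away f) f
  refine ⟨PrimeSpectrum.comap (algebraMap A (Localization.Away f)) '' W.locus Lf, ?_,
    hemb.isOpenMap _ hopen, ?_⟩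
  · rintro _ ⟨q, hq, rfl⟩
    rw [W.locus_bc φ hLf] at hq
    exact hq
  · have hpr : p ∈ Set.range (PrimeSpectrum.comap (algebraMap A (Localization.Away f))) := by
      rw [hrange]
      exact hpf
    obtain ⟨q, rfl⟩ := hpr
    refine ⟨q, ?_, rfl⟩
    rw [W.locus_bc φ hLf]
    exact hp

end Fermat.Agent.Jac.Cover12.FibreOpen
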