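/-
Programme JAC (S25), brick A6 Cover / R2a (HC-open) (helper12), file 9: the condition
`AlgChart76.H1Vanish` fibrewise, in terms of the loci `Cover12.H1Locus.h1Locus (M(-Q_i))`
(on top of helper76's `AlgChart76/InfTwist.lean`, `AlgChart76/H1Vanish.lean`).

* `h1Vanish_lift_iff`, `h1Vanish_fibre_iff`, `h1Vanish_iff_h1Locus` : `H1Vanish` of a base change,
  of a fibre, and globally, in terms of `Cover12.H1Locus.h1Locus (M(-Q_i))`;
* `isOpen_iInter_h1Locus` : the locus where `H1Vanish` holds fibrewise is open.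
-/
import Fermat.Agent.Jac.AlgChart76.H1Vanish

set_option autoImplicit false
set_option linter.unusedSectionVars false

universe u

open TensorProduct

namespace Fermat.Agent.Jac.Cover12.InfLift

open scoped Fermat.Agent.Jac.BaseChange75
open Fermat.Agent.Jac Fermat.Agent.Jac.AlgChart76 Fermat.Agent.Jac.LineOps39
  Fermat.Agent.Jac.JSmooth85Alg Fermat.Agent.Jac.BaseChange75 Fermat.Agent.Jac.Cover12.H1Locus

variable {k : Type u} [Field k] {B0 B1 B01 : Type u} [CommRing B0] [CommRing B1] [CommRing B01]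
  [Algebra k B0] [Algebra k B1] [Algebra k B01] [Algebra B0 B01] [Algebra B1 B01]
  [IsScalarTower k B0 B01] [IsScalarTower k B1 B01]
  (c0 : TwoChart k B0 B1 B01) {ιInf : Type} (e : ιInf → (B1 →ₐ[k] k))

section Inf

variable (hs : ∀ i, e i c0.s = 0)
  {A A' : Type u} [CommRing A] [CommRing A'] [Algebra k A] [Algebra k A'] [Algebra A A']
  [IsScalarTower k A A']

include hs in
/-- `H1Vanish` of a base change `M'` of `M`, in terms of the intrinsic base change of the Čech
complexes of the `M(-Q_i)`. -/
theorem h1Vanish_lift_iff {M : QCA k B0 B1 B01 A} {M' : QCA k B0 B1 B01 A'} (hM : M.IsVB)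
    (h : LiftData M M') :
    H1Vanish c0 e M' ↔
      ∀ i, Subsingleton ((downTwist (c0.baseChange A) M (infPair c0 e A i)).H1BC A') :=
  forall_congr' fun i =>
    ChiLift.subsingleton_H1_lift_tensor_iff (liftDataInfTwist c0 e i (hs i) h hM)

include hs in
/-- `H1Vanish` of the fibre of `M` at `p`, in terms of the `H¹`-vanishing loci of the
`M(-Q_i)`. -/
theorem h1Vanish_fibre_iff {M : QCA k B0 B1 B01 A} (hM : M.IsVB) (p : PrimeSpectrum A)
    {Mp : QCA k B0 B1 B01 p.asIdeal.ResidueField} (h : LiftData M Mp) :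
    H1Vanish c0 e Mp ↔
      ∀ i, p ∈ h1Locus (downTwist (c0.baseChange A) M (infPair c0 e A i)) :=
  h1Vanish_lift_iff c0 e hs hM h

end Inf

section Global

variable (hs : ∀ i, e i c0.s = 0) (hc0 : c0.FiniteProjOverLine)
  (hinv : ∀ i, Module.Invertible B1 (RingHom.ker (e i)))
  {A : Type u} [CommRing A] [Algebra k A]

include hs hinv hc0 in
theorem finiteOverLine_infTwist {M : QCA k B0 B1 B01 A} (hM : M.IsVB) (i : ιInf) :
    (downTwist (c0.baseChange A) M (infPair c0 e A i)).FiniteOverLine (c0.baseChange A) :=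
  finiteOverLine_of_isVB (c0.baseChange A) (hc0.baseChange A) (isVB_infTwist c0 e hs hinv hM i)

include hs hinv hc0 in
/-- `H1Vanish` holds globally iff the `H¹`-vanishing loci of all `M(-Q_i)` are everything. -/
theorem h1Vanish_iff_h1Locus {M : QCA k B0 B1 B01 A} (hM : M.IsVB) :
    H1Vanish c0 e M ↔
      ∀ i, h1Locus (downTwist (c0.baseChange A) M (infPair c0 e A i)) = Set.univ :=
  forall_congr' fun i =>
    (h1Locus_eq_univ_iff (c0.baseChange A) _
      (finiteOverLine_infTwist c0 e hs hc0 hinv hM i)).symm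

include hs hinv hc0 in
/-- The locus where `H1Vanish` holds fibrewise is open (finitely many points at infinity). -/
theorem isOpen_iInter_h1Locus [Finite ιInf] {M : QCA k B0 B1 B01 A} (hM : M.IsVB) :
    IsOpen (⋂ i, h1Locus (downTwist (c0.baseChange A) M (infPair c0 e A i))) :=
  isOpen_iInter_of_finite fun i =>
    isOpen_h1Locus (c0.baseChange A) _ (finiteOverLine_infTwist c0 e hs hc0 hinv hM i)

end Global

end Fermat.Agent.Jac.Cover12.InfLift
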