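/-
Programme JAC (S25), brick R2a (HC-open) (helper12), file 11: OPENNESS of the fibrewise locus of
the core Hilbert chart condition `AlgChart76.wCore c0 e v` on the moduli problem
`stdFam (e i₀) 1`.

* `algebraMap_eq_tmap`, `map_algebraMap_eq_map_tmap` : the extension of an ideal along
  `A ⊗ B → A' ⊗ B` in the two vocabularies (`BaseChange75` scoped algebra / `HilbChart87.tmap`);
* `sectionIdeal_lift` : `sectionIdeal` commutes with base change when `H⁰(M) = A σ` is good;
* `sectionIdeal_lift_mem_hilbV_iff` : for a `W`-object `M` over `A` (line, rigidifiable at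
  `e i₀`, `χ = 1`, `H1Vanish`) and any base change `M'` over `A'`:
  `sectionIdeal M' ∈ HilbV k v A' ↔ A' ⊗ θ_v` bijective, `θ_v : A^g → R0 / sectionIdeal M`;
* `finite_projective_quot_sectionIdeal` : `R0 / sectionIdeal M` is finite projective over `A`;
* `condH1`, `condCore` : the two field conditions; `condH1_locus` (`= ⋂ᵢ h1Locus (M(-Q_i))`),
  `condCore_locus_of_h1Vanish` (`= chartLocus v (sectionIdeal M)` when `H1Vanish M`);
* **`isOpen_fibreSet_wCore`** : the fibrewise locus of `wCore c0 e v` is open.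
-/
import Fermat.Agent.Jac.Chart43.Concrete
import Fermat.Agent.Jac.Chart43.LiftSection
import Fermat.Agent.Jac.Cover12.InfLift
import Fermat.Agent.Jac.Cover12.FibreOpen
import Fermat.Agent.Jac.Cover12.HilbOpen
import Fermat.Agent.Jac.AlgChart76.StdCut

set_option autoImplicit false
set_option linter.unusedSectionVars false
set_option linter.style.haveILetI false

universe u

open TensorProduct

namespace Fermat.Agent.Jac.Cover12.CoreOpen

open scoped Fermat.Agent.Jac.BaseChange75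
open Fermat.Agent.Jac Fermat.Agent.Jac.AlgChart76 Fermat.Agent.Jac.LineOps39
  Fermat.Agent.Jac.JSmooth85Alg Fermat.Agent.Jac.BaseChange75 Fermat.Agent.Jac.Cover12.H1Locus
  Fermat.Agent.Jac.Cover12.FibreOpen Fermat.Agent.Jac.HilbChart87 Fermat.Agent.Jac.Chart43

variable {k : Type u} [Field k] {B0 B1 B01 : Type u} [CommRing B0] [CommRing B1] [CommRing B01]
  [Algebra k B0] [Algebra k B1] [Algebra k B01] [Algebra B0 B01] [Algebra B1 B01]
  [IsScalarTower k B0 B01] [IsScalarTower k B1 B01]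
  (c0 : TwoChart k B0 B1 B01) {ιInf : Type} (e : ιInf → (B1 →ₐ[k] k))

section MapIdeal

variable {B : Type u} [CommRing B] [Algebra k B]
  {A A' : Type u} [CommRing A] [CommRing A'] [Algebra k A] [Algebra k A'] [Algebra A A']
  [IsScalarTower k A A']

/-- The structure map `A ⊗ B → A' ⊗ B` of `BaseChange75` is helper87's `tmap`. -/
theorem algebraMap_eq_tmap (z : A ⊗[k] B) :
    algebraMap (A ⊗[k] B) (A' ⊗[k] B) z = HilbChart87.tmap (HilbOpen.str (k := k) A') z := by
  induction z using TensorProduct.induction_on with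
  | zero => simp
  | add x y hx hy => rw [map_add, map_add, hx, hy]
  | tmul a b =>
    rw [algebraMap_left_tmul, HilbChart87.tmap_tmul]
    rfl

theorem map_algebraMap_eq_map_tmap (I : Ideal (A ⊗[k] B)) :
    I.map (algebraMap (A ⊗[k] B) (A' ⊗[k] B)) = I.map (HilbChart87.tmap (HilbOpen.str (k := k) A')) := by
  apply le_antisymm
  · rw [Ideal.map_le_iff_le_comap]
    intro x hx
    rw [Ideal.mem_comap, algebraMap_eq_tmap]
    exact Ideal.mem_map_of_mem _ hx
  · rw [Ideal.map_le_iff_le_comap]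
    intro x hx
    rw [Ideal.mem_comap, ← algebraMap_eq_tmap]
    exact Ideal.mem_map_of_mem _ hx

end MapIdeal

section Key

variable {g : ℕ} (v : Fin g → B0)
  {A A' : Type u} [CommRing A] [CommRing A'] [Algebra k A] [Algebra k A'] [Algebra A A']
  [IsScalarTower k A A']

/-- `sectionIdeal` commutes with base change when `H⁰(M) = A σ` and `H⁰` is good. -/
theorem sectionIdeal_lift {M : QCA k B0 B1 B01 A} {M' : QCA k B0 B1 B01 A'} (h : LiftData M M')
    (hM : M.IsLine) (σ : M.H0) (hgen : ∀ τ : M.H0, ∃ a : A, τ = a • σ)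
    (hgood : P1CohChi.GoodH0 M) :
    sectionIdeal M' = (sectionIdeal M).map (algebraMap (A ⊗[k] B0) (A' ⊗[k] B0)) := by
  have := hM.inv0
  have := BaseChange75.towerLeft' k A A' B0
  have := BaseChange75.towerLeft' k A A' B1
  have := BaseChange75.towerLeft' k A A' B01
  exact span_dual_apply_liftData h σ hgen (hgood.bij A').2

variable (hc0 : c0.FiniteProjOverLine) (hInf : InfData c0 e) (i₀ : ιInf)
  (hB0 : ∀ (K : Type u) [Field K] [Algebra k K], IsDomain (K ⊗[k] B0))
  (hB1 : ∀ (K : Type u) [Field K] [Algebra k K], IsDomain (K ⊗[k] B1))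

include hc0 hInf hB0 hB1 in
/-- For a `W`-object `M` over `A` and any base change `M'` of `M` to `A'`, the section ideal of
`M'` is a point of `Hilb_v(A')` iff `A' ⊗ θ_v` is bijective. -/
theorem sectionIdeal_lift_mem_hilbV_iff {M : QCA k B0 B1 B01 A} {M' : QCA k B0 B1 B01 A'}
    (h : LiftData M M') (hM : M.IsLine) (hr : Rigidifiable (e i₀) M)
    (hχ : ∀ p : PrimeSpectrum A, M.chi p = 1) (hv : H1Vanish c0 e M) :
    sectionIdeal M' ∈ HilbV k v A' ↔
      Function.Bijective ((HilbOpen.theta v (sectionIdeal M)).baseChange A') := by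
  obtain ⟨-, hgood, ρ, σ, -, hcd⟩ := stdFam_chart_divisor c0 e hc0 hInf i₀ hB0 hB1 M hM hr hχ hv
  rw [sectionIdeal_lift h hM σ hcd.gen hgood, map_algebraMap_eq_map_tmap,
    HilbOpen.map_mem_hilbV_iff_bijective_baseChange]

include hc0 hInf hB0 hB1 in
/-- For a `W`-object `M` over `A`, `R0 / sectionIdeal M` is finite projective over `A`. -/
theorem finite_projective_quot_sectionIdeal {M : QCA k B0 B1 B01 A}
    (hM : M.IsLine) (hr : Rigidifiable (e i₀) M)
    (hχ : ∀ p : PrimeSpectrum A, M.chi p = 1) (hv : H1Vanish c0 e M)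
    (hU : Module.Finite A (QC2.unit : QCA k B0 B1 B01 A).H1 ∧
      Module.Projective A (QC2.unit : QCA k B0 B1 B01 A).H1) :
    Module.Finite A ((A ⊗[k] B0) ⧸ sectionIdeal M) ∧
      Module.Projective A ((A ⊗[k] B0) ⧸ sectionIdeal M) := by
  obtain ⟨-, -, ρ, σ, -, hcd⟩ := stdFam_chart_divisor c0 e hc0 hInf i₀ hB0 hB1 M hM hr hχ hv
  have heq : sectionIdeal M = contentIdeal (A ⊗[k] B0) σ.1.1 := hcd.sectionIdeal_eq
  rw [heq]
  exact ⟨hcd.finite, hcd.projective hU.1 hU.2⟩

end Key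

section Main

variable {g : ℕ} (v : Fin g → B0) (i₀ : ιInf) (hs : ∀ i, e i c0.s = 0)

/-- The field condition `H1Vanish` on `stdFam (e i₀) 1`. -/
def condH1 : FieldCond (stdFam (B0 := B0) (B01 := B01) (e i₀) 1) where
  w L := H1Vanish c0 e L.1
  w_iso := fun ⟨f⟩ h => H1Vanish.iso c0 e f h
  w_bc := by
    intro K K' _ _ _ _ φ L L' h
    letI := φ.toRingHom.toAlgebra
    haveI : IsScalarTower k K K' := tower_of_algHom φ
    obtain ⟨h⟩ := h
    exact ⟨H1Vanish.liftData c0 e hs h (isVB_of_isLine L.2.1),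
      H1Vanish.of_liftData_field c0 e hs h (isVB_of_isLine L.2.1)⟩

/-- The field condition `wCore c0 e v` on `stdFam (e i₀) 1`, given its invariance under field
extension. -/
def condCore
    (hbc : ∀ {K K' : Type u} [Field K] [Field K'] [Algebra k K] [Algebra k K'] (φ : K →ₐ[k] K')
      {L : (stdFam (B0 := B0) (B01 := B01) (e i₀) 1).Obj K}
      {L' : (stdFam (B0 := B0) (B01 := B01) (e i₀) 1).Obj K'},
      (stdFam (B0 := B0) (B01 := B01) (e i₀) 1).BC φ L L' →
        (wCore c0 e v L.1 ↔ wCore c0 e v L'.1)) :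
    FieldCond (stdFam (B0 := B0) (B01 := B01) (e i₀) 1) where
  w L := wCore c0 e v L.1
  w_iso := fun ⟨f⟩ h => ⟨H1Vanish.iso c0 e f h.1, by
    have h2 := h.2
    rwa [sectionIdeal_iso f] at h2⟩
  w_bc := hbc

variable {A : Type u} [CommRing A] [Algebra k A]

/-- The fibrewise locus of `H1Vanish` is the intersection of the `H¹`-vanishing loci of the
`M(-Q_i)`. -/
theorem condH1_locus (L : (stdFam (B0 := B0) (B01 := B01) (e i₀) 1).Obj A) :
    (condH1 c0 e i₀ hs).locus L =
      ⋂ i, h1Locus (downTwist (c0.baseChange A) L.1 (infPair c0 e A i)) := by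
  ext p
  rw [Set.mem_iInter]
  constructor
  · rintro ⟨Lp, hBC, hw⟩
    obtain ⟨h⟩ := (bcRel_toAlgHom L.1 Lp.1).1 hBC
    exact (InfLift.h1Vanish_fibre_iff c0 e hs (isVB_of_isLine L.2.1) p h).1 hw
  · intro hp
    obtain ⟨Lp, hBC⟩ := (stdFam (B0 := B0) (B01 := B01) (e i₀) 1).bc_exists (resHom p) L
    obtain ⟨h⟩ := (bcRel_toAlgHom L.1 Lp.1).1 hBC
    exact ⟨Lp, hBC, (InfLift.h1Vanish_fibre_iff c0 e hs (isVB_of_isLine L.2.1) p h).2 hp⟩

variable (hc0 : c0.FiniteProjOverLine) (hInf : InfData c0 e)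
  (hinv : ∀ i, Module.Invertible B1 (RingHom.ker (e i)))
  (hB0 : ∀ (K : Type u) [Field K] [Algebra k K], IsDomain (K ⊗[k] B0))
  (hB1 : ∀ (K : Type u) [Field K] [Algebra k K], IsDomain (K ⊗[k] B1))

include hc0 hinv in
theorem isOpen_condH1_locus [Finite ιInf]
    (L : (stdFam (B0 := B0) (B01 := B01) (e i₀) 1).Obj A) :
    IsOpen ((condH1 c0 e i₀ hs).locus L) := by
  rw [condH1_locus]
  exact InfLift.isOpen_iInter_h1Locus c0 e hs hc0 hinv (isVB_of_isLine L.2.1)

include hc0 hinv in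
theorem h1Vanish_of_condH1_locus_eq_univ
    (L : (stdFam (B0 := B0) (B01 := B01) (e i₀) 1).Obj A)
    (h : (condH1 c0 e i₀ hs).locus L = Set.univ) : H1Vanish c0 e L.1 := by
  rw [condH1_locus, Set.iInter_eq_univ] at h
  exact (InfLift.h1Vanish_iff_h1Locus c0 e hs hc0 hinv (isVB_of_isLine L.2.1)).2 h

include hc0 hInf hB0 hB1 in
/-- For a `W`-object `L` over `A` the fibrewise locus of `wCore c0 e v` is the chart locus of
the section ideal. -/
theorem fibreSet_wCore_of_h1Vanish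
    (L : (stdFam (B0 := B0) (B01 := B01) (e i₀) 1).Obj A) (hv : H1Vanish c0 e L.1) :
    fibreSet (stdFam (B0 := B0) (B01 := B01) (e i₀) 1) (fun {_K} _ _ L => wCore c0 e v L.1) L =
      HilbOpen.chartLocus v (sectionIdeal L.1) := by
  ext p
  rw [HilbOpen.mem_chartLocus]
  constructor
  · rintro ⟨Lp, hBC, hw⟩
    obtain ⟨h⟩ := (bcRel_toAlgHom L.1 Lp.1).1 hBC
    exact (sectionIdeal_lift_mem_hilbV_iff c0 e v hc0 hInf i₀ hB0 hB1 h L.2.1 L.2.2.1 L.2.2.2
      hv).1 hw.2
  · intro hp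
    obtain ⟨Lp, hBC⟩ := (stdFam (B0 := B0) (B01 := B01) (e i₀) 1).bc_exists (resHom p) L
    obtain ⟨h⟩ := (bcRel_toAlgHom L.1 Lp.1).1 hBC
    exact ⟨Lp, hBC, H1Vanish.liftData c0 e hInf.s_mem h (isVB_of_isLine L.2.1) hv,
      (sectionIdeal_lift_mem_hilbV_iff c0 e v hc0 hInf i₀ hB0 hB1 h L.2.1 L.2.2.1 L.2.2.2
        hv).2 hp⟩

include hc0 hInf hinv hB0 hB1 in
/-- **(HC-open)** The fibrewise locus of the core Hilbert chart condition is open. -/
theorem isOpen_fibreSet_wCore [Finite ιInf]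
    (hU : ∀ (A : Type u) [CommRing A] [Algebra k A],
      Module.Finite A (QC2.unit : QCA k B0 B1 B01 A).H1 ∧
        Module.Projective A (QC2.unit : QCA k B0 B1 B01 A).H1)
    (hbc : ∀ {K K' : Type u} [Field K] [Field K'] [Algebra k K] [Algebra k K'] (φ : K →ₐ[k] K')
      {L : (stdFam (B0 := B0) (B01 := B01) (e i₀) 1).Obj K}
      {L' : (stdFam (B0 := B0) (B01 := B01) (e i₀) 1).Obj K'},
      (stdFam (B0 := B0) (B01 := B01) (e i₀) 1).BC φ L L' →
        (wCore c0 e v L.1 ↔ wCore c0 e v L'.1))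
    (L : (stdFam (B0 := B0) (B01 := B01) (e i₀) 1).Obj A) :
    IsOpen (fibreSet (stdFam (B0 := B0) (B01 := B01) (e i₀) 1)
      (fun {_K} _ _ L => wCore c0 e v L.1) L) := by
  refine isOpen_locus_of_local (condH1 c0 e i₀ hInf.s_mem) (condCore c0 e v i₀ hbc)
    (fun L h => h.1) (fun L => isOpen_condH1_locus c0 e i₀ hInf.s_mem hc0 hinv L) ?_ L
  intro A' _ _ L' huniv
  have hv : H1Vanish c0 e L'.1 :=
    h1Vanish_of_condH1_locus_eq_univ c0 e i₀ hInf.s_mem hc0 hinv L' huniv
  obtain ⟨hfin, hproj⟩ := finite_projective_quot_sectionIdeal c0 e hc0 hInf i₀ hB0 hB1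
    L'.2.1 L'.2.2.1 L'.2.2.2 hv (hU A')
  show IsOpen (fibreSet (stdFam (B0 := B0) (B01 := B01) (e i₀) 1)
    (fun {_K} _ _ L => wCore c0 e v L.1) L')
  rw [fibreSet_wCore_of_h1Vanish c0 e v i₀ hc0 hInf hB0 hB1 L' hv]
  exact HilbOpen.isOpen_chartLocus v (sectionIdeal L'.1)

end Main

end Fermat.Agent.Jac.Cover12.CoreOpen
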