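/-
Programme JAC (S25), brick A6 Cover (helper12), file 7: covering of the Hilbert functor by the
charts `Hilb_v` at field points.

`K` a field over `k`, `I` an ideal of `K ⊗[k] B` with `(K ⊗ B)/I` of finite dimension `g` over `K`:
there is `v : Fin g → B` with `I ∈ HilbChart87.HilbV k v K`.
-/
import Mathlib
import Fermat.Agent.Jac.Cover12.HilbOpen

set_option autoImplicit false

open TensorProduct
open Fermat.Agent.Jac.HilbChart87 Fermat.Agent.Jac.Cover12.HilbOpen

namespace Fermat.Agent.Jac.Cover12.HilbField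

universe u v w

variable {k : Type u} [CommRing k] {B : Type v} [CommRing B] [Algebra k B]
  {K : Type w} [Field K] [Algebra k K] (I : Ideal (K ⊗[k] B))

/-- The classes of `1 ⊗ b`, `b : B`, span `(K ⊗ B)/I` over `K`. -/
theorem span_range_eq_top :
    Submodule.span K (Set.range fun b : B => Ideal.Quotient.mk I ((1 : K) ⊗ₜ[k] b)) = ⊤ := by
  rw [eq_top_iff]
  intro q hq
  clear hq
  obtain ⟨z, rfl⟩ := Ideal.Quotient.mk_surjective q
  induction z using TensorProduct.induction_on with
  | zero =>
    rw [map_zero]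
    exact Submodule.zero_mem _
  | tmul a b =>
    have h0 : a ⊗ₜ[k] b = a • ((1 : K) ⊗ₜ[k] b) := by
      rw [TensorProduct.smul_tmul', smul_eq_mul, mul_one]
    have h1 : Ideal.Quotient.mk I (a ⊗ₜ[k] b) = a • Ideal.Quotient.mk I ((1 : K) ⊗ₜ[k] b) := by
      rw [h0]
      exact map_smul (Ideal.Quotient.mkₐ K I) a _
    rw [h1]
    exact Submodule.smul_mem _ _ (Submodule.subset_span ⟨b, rfl⟩)
  | add z z' hz hz' =>
    rw [map_add]
    exact Submodule.add_mem _ hz hz'

/-- **Covering at field points.**  If `(K ⊗ B)/I` has finite dimension `g` over the field `K`,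
then `I` is a point of `Hilb_v` for some `v : Fin g → B`. -/
theorem exists_mem_hilbV [Module.Finite K ((K ⊗[k] B) ⧸ I)] {g : ℕ}
    (hg : Module.finrank K ((K ⊗[k] B) ⧸ I) = g) : ∃ v : Fin g → B, I ∈ HilbV k v K := by
  classical
  set φ : B → (K ⊗[k] B) ⧸ I := fun b => Ideal.Quotient.mk I ((1 : K) ⊗ₜ[k] b) with hφ
  obtain ⟨s, hsS, hspan, hli⟩ := exists_linearIndependent K (Set.range φ)
  have htop : Submodule.span K s = ⊤ := by rw [hspan]; exact span_range_eq_top I
  have hfin : s.Finite := hli.setFinite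
  have : Fintype s := hfin.fintype
  let bas : Module.Basis s K ((K ⊗[k] B) ⧸ I) :=
    Module.Basis.mk hli (by rw [Subtype.range_coe]; exact htop.ge)
  have hcard : Fintype.card s = g := by
    rw [← hg, Module.finrank_eq_card_basis bas]
  let e : Fin g ≃ s := (Fintype.equivFinOfCardEq hcard).symm
  have hex : ∀ i : Fin g, ∃ b : B, φ b = (e i : (K ⊗[k] B) ⧸ I) := fun i => hsS (e i).2
  choose v hv using hex
  refine ⟨v, ?_⟩
  rw [mem_hilbV_iff]
  have hsurj : Function.Surjective (theta v I) := by
    rw [← LinearMap.range_eq_top, eq_top_iff, ← htop, Submodule.span_le]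
    intro x hx
    obtain ⟨i, hi⟩ := e.surjective ⟨x, hx⟩
    refine ⟨(Pi.single i (1 : K) : Fin g → K), ?_⟩
    rw [theta_apply, vmap_single]
    have := hv i
    rw [hi] at this
    exact this
  have hrank : Module.finrank K (Fin g → K) = Module.finrank K ((K ⊗[k] B) ⧸ I) := by
    rw [hg, Module.finrank_fin_fun]
  exact ⟨(LinearMap.injective_iff_surjective_of_finrank_eq_finrank hrank).mpr hsurj, hsurj⟩

end Fermat.Agent.Jac.Cover12.HilbField
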