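/-
Programme JAC (S25), brick R2a (COV) (helper12), file 12: THE COVERING PROPERTY of the core Hilbert
charts on field-valued objects, in helper76's vocabulary (`AlgChart76/{HilbCore,Transl}.lean`).

For `k` algebraically closed, `K` a field over `k` and `M` a line over the tensor rings of `K` of
Euler characteristic `1 - g`: there are `m : ℕ`, `k`-points `q_1 … q_n` of chart 0 and
`v : Fin g → B0` with `m d - n = g` and
`wCore c0 e v (translQC c0 m [q_1 … q_n] M)`, `d = degInf c0 = dim_k B1 / s B1`.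

* `ptIdeal_eq`, `infPair_eq` : the two vocabularies for points agree (by `rfl`);
* `rigidifiable_of_isLocalRing` : over a local ring every line is rigidifiable at any point;
* `finrank_quot_sectionIdeal` : for a `W`-object `M` over a field `K`,
  `dim_K R0 / sectionIdeal M = g` where `χ(O) = 1 - g` (degree of the divisor of the section);
* `exists_mem_hilbV_sectionIdeal` : hence `sectionIdeal M ∈ HilbV k v K` for some `v`;
* **`exists_cover_wCore`** : the covering property.
-/
import Fermat.Agent.Jac.Cover12.TensorCover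
import Fermat.Agent.Jac.Cover12.HilbField
import Fermat.Agent.Jac.Chart43.Concrete
import Fermat.Agent.Jac.AlgChart76.Transl
import Fermat.Agent.Jac.AlgChart76.StdCut
import Fermat.Agent.Jac.ConverseDiv60Props

set_option autoImplicit false
set_option linter.unusedSectionVars false
set_option linter.style.haveILetI false

universe u

open TensorProduct

namespace Fermat.Agent.Jac.Cover12.CovFinal

open scoped Fermat.Agent.Jac.BaseChange75
open Fermat.Agent.Jac Fermat.Agent.Jac.AlgChart76 Fermat.Agent.Jac.LineOps39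
  Fermat.Agent.Jac.JSmooth85Alg Fermat.Agent.Jac.BaseChange75 Fermat.Agent.Jac.HilbChart87
  Fermat.Agent.Jac.Chart43 Fermat.Agent.Jac.Cover12.FieldCover
  Fermat.Agent.Jac.RiemannCover82.Cover Fermat.Agent.Jac.AbelJacobi73

variable {k : Type u} [Field k] {B0 B1 B01 : Type u} [CommRing B0] [CommRing B1] [CommRing B01]
  [Algebra k B0] [Algebra k B1] [Algebra k B01] [Algebra B0 B01] [Algebra B1 B01]
  [IsScalarTower k B0 B01] [IsScalarTower k B1 B01]
  (c0 : TwoChart k B0 B1 B01) {ιInf : Type} (e : ιInf → (B1 →ₐ[k] k))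

/-- helper76's and helper40's ideals of the `K`-point induced by a `k`-point agree. -/
theorem ptIdeal_eq {B : Type u} [CommRing B] [Algebra k B] (q : B →ₐ[k] k) (K : Type u) [Field K]
    [Algebra k K] : AlgChart76.ptIdeal q K = CurveBaseChange40.ptIdeal K q := rfl

/-- helper76's points at infinity are those of `Cover12.TensorCover`. -/
theorem infPair_eq (K : Type u) [Field K] [Algebra k K] (i : ιInf) :
    AlgChart76.infPair c0 e K i = TensorCover.infPair c0 K (e i) := rfl

/-- Over a local ring every line is rigidifiable at every point of chart 1. -/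
theorem rigidifiable_of_isLocalRing (P0 : B1 →ₐ[k] k) {A : Type u} [CommRing A] [Algebra k A]
    [IsLocalRing A] {L : QCA k B0 B1 B01 A} (hL : L.IsLine) : Rigidifiable P0 L := by
  have := hL.inv1
  letI := algEval P0 A
  exact Module.Invertible.free_iff_linearEquiv.mp inferInstance

section Field

variable (hc0 : c0.FiniteProjOverLine) (hInf : InfData c0 e) (i₀ : ιInf)
  (hB0 : ∀ (K : Type u) [Field K] [Algebra k K], IsDomain (K ⊗[k] B0))
  (hB1 : ∀ (K : Type u) [Field K] [Algebra k K], IsDomain (K ⊗[k] B1))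
  {g : ℕ} (hg : ChiBC36.chiUnit k B0 B1 B01 = 1 - (g : ℤ))
  {K : Type u} [Field K] [Algebra k K]

include hc0 hInf i₀ hB0 hB1 hg in
/-- **Degree of the divisor of the section.**  For a `W`-object `M` over a field, the quotient
`R0 / sectionIdeal M` has dimension `g`. -/
theorem finrank_quot_sectionIdeal (M : QCA k B0 B1 B01 K) (hM : M.IsLine)
    (hχ : ∀ p : PrimeSpectrum K, M.chi p = 1) (hv : H1Vanish c0 e M) :
    Module.Finite K ((K ⊗[k] B0) ⧸ sectionIdeal M) ∧
      Module.finrank K ((K ⊗[k] B0) ⧸ sectionIdeal M) = g := by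
  have hr : Rigidifiable (e i₀) M := rigidifiable_of_isLocalRing (e i₀) hM
  obtain ⟨-, -, ρ, σ, -, hcd⟩ := stdFam_chart_divisor c0 e hc0 hInf i₀ hB0 hB1 M hM hr hχ hv
  have heq : sectionIdeal M = contentIdeal (K ⊗[k] B0) σ.1.1 := hcd.sectionIdeal_eq
  rw [heq]
  have hfin : Module.Finite K ((K ⊗[k] B0) ⧸ contentIdeal (K ⊗[k] B0) σ.1.1) := hcd.finite
  refine ⟨hfin, ?_⟩
  have hinv : Module.Invertible (K ⊗[k] B0) (contentIdeal (K ⊗[k] B0) σ.1.1) := hcd.inv0
  obtain ⟨hVB, ⟨f⟩⟩ := hcd.iso
  have f' : QC2.Iso M (ConverseDiv60Props.divisorBundle (c0.baseChange K)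
      (contentIdeal (K ⊗[k] B0) σ.1.1)) := f
  have h1 := ChiBC36.chiField_iso f' K
  have h2 := ConverseDiv60Props.chiField_divisorBundle (c0.baseChange K) (hc0.baseChange K)
    (contentIdeal (K ⊗[k] B0) σ.1.1)
  have p : PrimeSpectrum K := default
  have h3 : M.chiField K = 1 := by
    rw [← ChiBC36.chi_eq_chiField_of_field M p]
    exact hχ p
  have h4 : (QC2.unit : QCA k B0 B1 B01 K).chiField K = 1 - (g : ℤ) := by
    rw [← ChiBC36.chi_eq_chiField_of_field _ p, ChiBC36.chi_unit, hg]
  rw [h3, h2, h4] at h1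
  omega

include hc0 hInf i₀ hB0 hB1 hg in
/-- For a `W`-object `M` over a field, the section ideal is a point of some `Hilb_v`. -/
theorem exists_mem_hilbV_sectionIdeal (M : QCA k B0 B1 B01 K) (hM : M.IsLine)
    (hχ : ∀ p : PrimeSpectrum K, M.chi p = 1) (hv : H1Vanish c0 e M) :
    ∃ v : Fin g → B0, wCore c0 e v M := by
  obtain ⟨hfin, hrank⟩ := finrank_quot_sectionIdeal c0 e hc0 hInf i₀ hB0 hB1 hg M hM hχ hv
  obtain ⟨v, hv'⟩ := HilbField.exists_mem_hilbV (sectionIdeal M) hrank
  exact ⟨v, hv, hv'⟩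

end Field

section Cover

variable [IsAlgClosed k] (hc0 : c0.FiniteProjOverLine) (hInf : InfData c0 e) [Finite ιInf]
  (i₀ : ιInf) [Algebra.FiniteType k B0] [IsDedekindDomain B0] (hB0f : ¬ IsField B0)
  [IsDedekindDomain B1] (hB1f : ¬ IsField B1)
  (hB0 : ∀ (K : Type u) [Field K] [Algebra k K], IsDomain (K ⊗[k] B0))
  (hB1 : ∀ (K : Type u) [Field K] [Algebra k K], IsDomain (K ⊗[k] B1))
  {g : ℕ} (hg : ChiBC36.chiUnit k B0 B1 B01 = 1 - (g : ℤ))

include hc0 hInf i₀ hB0f hB1f hB0 hB1 hg in
/-- **(COV) The covering property on field-valued objects.** -/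
theorem exists_cover_wCore (K : Type u) [Field K] [Algebra k K] (M : QCA k B0 B1 B01 K)
    (hM : M.IsLine) (hχ : ∀ p : PrimeSpectrum K, M.chi p = 1 - (g : ℤ)) :
    ∃ (m : ℕ) (l : List (B0 →ₐ[k] k)) (v : Fin g → B0),
      ((m : ℤ) * (degInf c0 : ℤ) + -(l.length : ℤ) = g) ∧
        wCore c0 e v (translQC c0 (m : ℤ) l M) := by
  haveI : Nonempty ιInf := ⟨i₀⟩
  obtain ⟨m, qs, hlen, hline, hchi, hres⟩ :=
    TensorCover.exists_cover_tensor c0 K hc0 hB0f hB1f e hM
  have hT : translQC c0 (m : ℤ) qs M =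
      downTwistList (c0.baseChange K) (M.twist (c0.baseChange K) m)
        (qs.map (CurveBaseChange40.ptIdeal K)) := translQC_eq_downTwistList c0 (m : ℤ) qs M
  have p : PrimeSpectrum K := default
  have hχM : chiK M = 1 - (g : ℤ) := by
    rw [chiK_eq_chiField, ← ChiBC36.chi_eq_chiField_of_field M p]
    exact hχ p
  have hline' : (translQC c0 (m : ℤ) qs M).IsLine := by rw [hT]; exact hline
  have hχ' : ∀ p : PrimeSpectrum K, (translQC c0 (m : ℤ) qs M).chi p = 1 := by
    intro p
    rw [ChiBC36.chi_eq_chiField_of_field, ← chiK_eq_chiField, hT]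
    exact hchi
  have hv : H1Vanish c0 e (translQC c0 (m : ℤ) qs M) := by
    intro i
    rw [hT]
    exact (hres i).2
  obtain ⟨v, hw⟩ := exists_mem_hilbV_sectionIdeal c0 e hc0 hInf i₀ hB0 hB1 hg _ hline' hχ' hv
  refine ⟨m, qs, v, ?_, hw⟩
  rw [hχM] at hlen
  omega

end Cover

end Fermat.Agent.Jac.Cover12.CovFinal
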