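/-
Programme JAC (S25), brick A6 Cover (helper12), file 6: **the covering lemma over a field**, in
the shape consumed by the chart assembly (blueprint 271, Claim 7; helper76's msg 1024 (3)).

`K` a field, `c : TwoChart K R0 R1 R01` finite projective over the line, `Pts` an infinite set of
good points of chart 0 with finite zero sets (hypotheses of helper82's
`RiemannCover82.Cover.exists_twist_points`), `D i` finitely many `K`-rational points with
invertible ideals (the points at infinity), `L` a line bundle.  Then there are `m : ℕ` and a list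
`l` of points of `Pts` such that for `M := L(m·∞ - Σ l)`:
`H⁰(M(-D i)) = 0` and `H¹(M(-D i)) = 0` for all `i`, `χ(M) = 1`, and
`length l = χ(L) + m·d - 1`, `d = dim_K R1/sR1`.

Also: `chiK_twist`, `chiK_downTwistList` (Euler characteristic of the twists), and
`hsame_of_chiK_eq` (discharging the `hsame` hypothesis of `exists_twist_points`).
-/
import Fermat.Agent.Jac.Cover12.TwistComm
import Fermat.Agent.Jac.AbelJacobi73.ChiK
import Fermat.Agent.Jac.P1CohChi.LineRank

set_option autoImplicit false
set_option linter.unusedSectionVars false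

universe u

open TensorProduct Module

namespace Fermat.Agent.Jac.Cover12.FieldCover

open Fermat.Agent.Jac Fermat.Agent.Jac.LineOps39 Fermat.Agent.Jac.RiemannCover82.Cover
  Fermat.Agent.Jac.RiemannCover82.Step Fermat.Agent.Jac.AbelJacobi73
  Fermat.Agent.Jac.Cover12.TwistComm Fermat.Agent.Jac.P1CohChi

variable {K R0 R1 R01 : Type u} [Field K] [CommRing R0] [CommRing R1] [CommRing R01]
  [Algebra K R0] [Algebra K R1] [Algebra K R01] [Algebra R0 R01] [Algebra R1 R01]
  [IsScalarTower K R0 R01] [IsScalarTower K R1 R01] (c : TwoChart K R0 R1 R01)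

/-- The degree of the divisor at infinity: `dim_K R1/sR1`. -/
noncomputable def degInf : ℕ := finrank K (LineRank.UInf c)

theorem chiK_eq_chiField (L : QC2 K R0 R1 R01) : chiK L = L.chiField K :=
  (chiField_self L).symm

theorem finCoh_of_isLine (hc : c.FiniteProjOverLine) {L : QC2 K R0 R1 R01} (hL : L.IsLine) :
    FinCoh L :=
  ⟨finiteDimensional_H0 c hc hL, finiteDimensional_H1 c hc hL⟩

theorem isLine_twist {L : QC2 K R0 R1 R01} (hL : L.IsLine) (m : ℤ) : (L.twist c m).IsLine :=
  ⟨hL.inv0, hL.inv1⟩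

/-- `χ(L(m)) = χ(L) + m·d` for a line bundle over a field. -/
theorem chiK_twist (hc : c.FiniteProjOverLine) {L : QC2 K R0 R1 R01} (hL : L.IsLine) (m : ℤ) :
    chiK (L.twist c m) = chiK L + m * (degInf c : ℤ) := by
  rw [chiK_eq_chiField, chiK_eq_chiField,
    LineRank.chiField_twist_line c L hc (finiteOverLine_of_isLine c hc hL)
      (projOverLine_of_isLine c hc hL) hL.inv1 K m, finrank_tensor_self]
  rfl

/-- If `H¹(L) = 0` then `h⁰(L) = χ(L)`. -/
theorem finrank_H0_eq_chiK {L : QC2 K R0 R1 R01} (h : Subsingleton L.H1) :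
    (finrank K L.H0 : ℤ) = chiK L := by
  have h1 : finrank K L.H1 = 0 := finrank_zero_of_subsingleton
  unfold chiK
  rw [h1]
  simp

/-- The hypothesis `hsame` of `RiemannCover82.Cover.exists_twist_points` holds for line bundles
with the same Euler characteristic. -/
theorem hsame_of_chiK_eq (hc : c.FiniteProjOverLine) {ι : Type*} (N : ι → QC2 K R0 R1 R01)
    (hN : ∀ i, (N i).IsLine) (hchi : ∀ i j, chiK (N i) = chiK (N j)) :
    ∃ m₁ : ℕ, ∀ m : ℤ, (m₁ : ℤ) ≤ m → (∀ i, Subsingleton ((N i).twist c m).H1) →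
      ∀ i j, finrank K ((N i).twist c m).H0 = finrank K ((N j).twist c m).H0 := by
  refine ⟨0, fun m _ h1 i j => ?_⟩
  have hi := finrank_H0_eq_chiK (h1 i)
  have hj := finrank_H0_eq_chiK (h1 j)
  rw [chiK_twist c hc (hN i)] at hi
  rw [chiK_twist c hc (hN j), ← hchi i j] at hj
  exact_mod_cast hi.trans hj.symm

theorem isRatPointPair_of_goodPoint {m : Ideal R0} (hm : GoodPoint c m) :
    IsRatPointPair c (IdealPair.ofChart0 c m) :=
  Or.inl ⟨m, hm.isMaximal, hm.rational, rfl⟩

theorem isLine_downTwist_goodPoint {L : QC2 K R0 R1 R01} (hL : L.IsLine) {m : Ideal R0}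
    (hm : GoodPoint c m) : (downTwist c L (IdealPair.ofChart0 c m)).IsLine :=
  isLine_downTwist c hL _ hm.inv0 hm.inv1

/-- `χ(L(-P)) = χ(L) - 1` for a rational point `P` with invertible ideals. -/
theorem chiK_downTwist (hc : c.FiniteProjOverLine) {L : QC2 K R0 R1 R01} (hL : L.IsLine)
    (X : IdealPair R0 R1 R01) (hX : IsRatPointPair c X) (h0 : Module.Invertible R0 X.I0)
    (h1 : Module.Invertible R1 X.I1) : chiK (downTwist c L X) = chiK L - 1 :=
  chiK_downTwist_ratPoint c L hL X hX (finCoh_of_isLine c hc hL)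
    (finiteDimensional_H1 c hc (isLine_downTwist c hL X h0 h1))

/-- Euler characteristic of an iterated down-twist at good points. -/
theorem chiK_downTwistList (hc : c.FiniteProjOverLine) :
    ∀ (l : List (Ideal R0)) {L : QC2 K R0 R1 R01}, L.IsLine → (∀ p ∈ l, GoodPoint c p) →
      (downTwistList c L l).IsLine ∧ chiK (downTwistList c L l) = chiK L - (l.length : ℤ)
  | [], L, hL, _ => ⟨hL, by simp⟩
  | m :: l, L, hL, hl => by
    have hm : GoodPoint c m := hl m (List.mem_cons_self ..)
    have hL' := isLine_downTwist_goodPoint c hL hm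
    obtain ⟨h1, h2⟩ := chiK_downTwistList hc l hL' (fun p hp => hl p (List.mem_cons_of_mem _ hp))
    refine ⟨h1, ?_⟩
    rw [downTwistList_cons, h2, chiK_downTwist c hc hL _ (isRatPointPair_of_goodPoint c hm)
      hm.inv0 hm.inv1]
    simp only [List.length_cons]
    push_cast
    ring

/-- **The covering lemma** (blueprint 271, Claim 7), in the order of operations used by the chart
assembly: first twist `L` at infinity and down-twist at the points of `l`, then test the
vanishing of the cohomology of the down-twists at the points `D i`. -/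
theorem exists_cover (hc : c.FiniteProjOverLine) {Pts : Set (Ideal R0)} (hPts : Pts.Infinite)
    (hgood : ∀ m ∈ Pts, GoodPoint c m) (hz : FiniteZeros Pts) {ι : Type*} [Finite ι]
    (D : ι → IdealPair R0 R1 R01) (hD : ∀ i, IsRatPointPair c (D i))
    (hD0 : ∀ i, Module.Invertible R0 (D i).I0) (hD1 : ∀ i, Module.Invertible R1 (D i).I1)
    {L : QC2 K R0 R1 R01} (hL : L.IsLine) :
    ∃ (m : ℕ) (l : List (Ideal R0)), (∀ p ∈ l, p ∈ Pts) ∧
      (downTwistList c (L.twist c m) l).IsLine ∧
      chiK (downTwistList c (L.twist c m) l) =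
        chiK L + (m : ℤ) * (degInf c : ℤ) - (l.length : ℤ) ∧
      ∀ i, (downTwist c (downTwistList c (L.twist c m) l) (D i)).H0 = ⊥ ∧
        Subsingleton (downTwist c (downTwistList c (L.twist c m) l) (D i)).H1 := by
  have hN : ∀ i, (downTwist c L (D i)).IsLine := fun i =>
    isLine_downTwist c hL (D i) (hD0 i) (hD1 i)
  have hchi : ∀ i j, chiK (downTwist c L (D i)) = chiK (downTwist c L (D j)) := fun i j => by
    rw [chiK_downTwist c hc hL (D i) (hD i) (hD0 i) (hD1 i),
      chiK_downTwist c hc hL (D j) (hD j) (hD0 j) (hD1 j)]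
  obtain ⟨m, l, hl, hres⟩ := exists_twist_points c hc hPts hgood hz
    (fun i => downTwist c L (D i)) hN (hsame_of_chiK_eq c hc _ hN hchi)
  obtain ⟨hline, hchiM⟩ := chiK_downTwistList c hc l (isLine_twist c hL (m : ℤ))
    (fun p hp => hgood p (hl p hp))
  refine ⟨m, l, hl, hline, ?_, fun i => ?_⟩
  · rw [hchiM, chiK_twist c hc hL]
  · obtain ⟨-, h0, h1⟩ := hres i
    have e := isoSymm (downTwistListTwistIso c L (D i) (m : ℤ) l)
    exact ⟨H0_eq_bot_of_iso e h0, subsingleton_H1_of_iso e h1⟩

/-- The covering lemma with the numerical consequences: `χ(M) = 1` and the number of points. -/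
theorem exists_cover_chi (hc : c.FiniteProjOverLine) {Pts : Set (Ideal R0)} (hPts : Pts.Infinite)
    (hgood : ∀ m ∈ Pts, GoodPoint c m) (hz : FiniteZeros Pts) {ι : Type*} [Finite ι] [Nonempty ι]
    (D : ι → IdealPair R0 R1 R01) (hD : ∀ i, IsRatPointPair c (D i))
    (hD0 : ∀ i, Module.Invertible R0 (D i).I0) (hD1 : ∀ i, Module.Invertible R1 (D i).I1)
    {L : QC2 K R0 R1 R01} (hL : L.IsLine) :
    ∃ (m : ℕ) (l : List (Ideal R0)), (∀ p ∈ l, p ∈ Pts) ∧
      (l.length : ℤ) = chiK L + (m : ℤ) * (degInf c : ℤ) - 1 ∧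
      (downTwistList c (L.twist c m) l).IsLine ∧
      chiK (downTwistList c (L.twist c m) l) = 1 ∧
      ∀ i, (downTwist c (downTwistList c (L.twist c m) l) (D i)).H0 = ⊥ ∧
        Subsingleton (downTwist c (downTwistList c (L.twist c m) l) (D i)).H1 := by
  obtain ⟨m, l, hl, hline, hchiM, hres⟩ := exists_cover c hc hPts hgood hz D hD hD0 hD1 hL
  obtain ⟨i⟩ := ‹Nonempty ι›
  obtain ⟨h0, h1⟩ := hres i
  have hzero : chiK (downTwist c (downTwistList c (L.twist c m) l) (D i)) = 0 := by
    have e1 : finrank K (downTwist c (downTwistList c (L.twist c m) l) (D i)).H1 = 0 :=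
      finrank_zero_of_subsingleton
    have e0 : finrank K (downTwist c (downTwistList c (L.twist c m) l) (D i)).H0 = 0 := by
      rw [h0, finrank_bot]
    unfold chiK
    rw [e0, e1]
    simp
  have hone : chiK (downTwistList c (L.twist c m) l) = 1 := by
    have := chiK_downTwist c hc hline (D i) (hD i) (hD0 i) (hD1 i)
    rw [hzero] at this
    linarith
  refine ⟨m, l, hl, ?_, hline, hone, hres⟩
  rw [hone] at hchiM
  linarith

end Fermat.Agent.Jac.Cover12.FieldCover
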