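/-
Programme JAC (S25), brick R2a (HC-open) (helper12), file 13: `Cover12.CoreOpen.isOpen_fibreSet_wCore`
with its two auxiliary hypotheses discharged (`hU` by helper98's `UnitH1_98.unit_H1_finite_free`,
`hbc` by helper76's `AlgChart76.wCore_liftData_field_iff`), in terms of helper76's bundle
`AlgChart76.ChartHyp c0 e`.

* `wCore_bc` : the field `w_bc` of `AlgChart76.FibrewiseChart (stdFam (e i₀) 1)` for `wCore c0 e v`;
* **`isOpen_fibreSet_wCore_of_chartHyp`** : the field `isOpen`.
-/
import Fermat.Agent.Jac.Cover12.CoreOpen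
import Fermat.Agent.Jac.AlgChart76.WCore
import Fermat.Agent.Jac.UnitH1_98

set_option autoImplicit false
set_option linter.unusedSectionVars false
set_option linter.style.haveILetI false

universe u

open TensorProduct

namespace Fermat.Agent.Jac.Cover12.CoreOpenHyp

open scoped Fermat.Agent.Jac.BaseChange75
open Fermat.Agent.Jac Fermat.Agent.Jac.AlgChart76 Fermat.Agent.Jac.LineOps39
  Fermat.Agent.Jac.JSmooth85Alg Fermat.Agent.Jac.BaseChange75

variable {k : Type u} [Field k] {B0 B1 B01 : Type u} [CommRing B0] [CommRing B1] [CommRing B01]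
  [Algebra k B0] [Algebra k B1] [Algebra k B01] [Algebra B0 B01] [Algebra B1 B01]
  [IsScalarTower k B0 B01] [IsScalarTower k B1 B01]
  {c0 : TwoChart k B0 B1 B01} {ιInf : Type} {e : ιInf → (B1 →ₐ[k] k)}

/-- The field `w_bc` of the fibrewise chart: `wCore` is invariant under field extension. -/
theorem wCore_bc (H : ChartHyp c0 e) (i₀ : ιInf) {g : ℕ} (v : Fin g → B0)
    {K K' : Type u} [Field K] [Field K'] [Algebra k K] [Algebra k K'] (φ : K →ₐ[k] K')
    {L : (stdFam (B0 := B0) (B01 := B01) (e i₀) 1).Obj K}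
    {L' : (stdFam (B0 := B0) (B01 := B01) (e i₀) 1).Obj K'}
    (h : (stdFam (B0 := B0) (B01 := B01) (e i₀) 1).BC φ L L') :
    wCore c0 e v L.1 ↔ wCore c0 e v L'.1 := by
  letI := φ.toRingHom.toAlgebra
  haveI : IsScalarTower k K K' := tower_of_algHom φ
  obtain ⟨h⟩ := h
  exact wCore_liftData_field_iff H i₀ h L.2.1 L.2.2.1 L.2.2.2

/-- **(HC-open)** The fibrewise locus of the core Hilbert chart condition is open. -/
theorem isOpen_fibreSet_wCore_of_chartHyp (H : ChartHyp c0 e) [Finite ιInf] (i₀ : ιInf) {g : ℕ}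
    (v : Fin g → B0) {A : Type u} [CommRing A] [Algebra k A]
    (L : (stdFam (B0 := B0) (B01 := B01) (e i₀) 1).Obj A) :
    IsOpen (fibreSet (stdFam (B0 := B0) (B01 := B01) (e i₀) 1)
      (fun {_K} _ _ L => wCore c0 e v L.1) L) :=
  CoreOpen.isOpen_fibreSet_wCore c0 e v i₀ H.hc0 H.hInf H.hinv H.hB0 H.hB1
    (fun A _ _ => UnitH1_98.unit_H1_finite_free c0 H.hc0 A)
    (fun φ _ _ h => wCore_bc H i₀ v φ h) L

end Fermat.Agent.Jac.Cover12.CoreOpenHyp
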