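/-
Programme JAC (S25), brick R2a (COV) (helper12), file 14: helper76's covering hypothesis
`AlgChart76.CovHyp c0 e i₀ g` (AlgChart76/Package.lean), from `Cover12.CovFinal.exists_cover_wCore`.
-/
import Fermat.Agent.Jac.Cover12.CovFinal
import Fermat.Agent.Jac.AlgChart76.Package

set_option autoImplicit false
set_option linter.unusedSectionVars false
set_option linter.style.haveILetI false

universe u

open TensorProduct

namespace Fermat.Agent.Jac.Cover12.CovHyp

open scoped Fermat.Agent.Jac.BaseChange75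
open Fermat.Agent.Jac Fermat.Agent.Jac.AlgChart76 Fermat.Agent.Jac.LineOps39
  Fermat.Agent.Jac.JSmooth85Alg Fermat.Agent.Jac.BaseChange75

variable {k : Type u} [Field k] [IsAlgClosed k] {B0 B1 B01 : Type u}
  [CommRing B0] [CommRing B1] [CommRing B01]
  [Algebra k B0] [Algebra k B1] [Algebra k B01] [Algebra B0 B01] [Algebra B1 B01]
  [IsScalarTower k B0 B01] [IsScalarTower k B1 B01]
  [Algebra.FiniteType k B0] [IsDedekindDomain B0]
  {c0 : TwoChart k B0 B1 B01} {ιInf : Type} [Finite ιInf] {e : ιInf → (B1 →ₐ[k] k)}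

/-- The two names of the degree of the divisor at infinity. -/
theorem degInf_eq_degInf0 : FieldCover.degInf c0 = Translate14.degInf0 c0 := rfl

/-- **(COV)** The covering hypothesis of the final assembly of the chart package. -/
theorem covHyp (H : ChartHyp c0 e) (i₀ : ιInf) (hB0f : ¬ IsField B0) [IsDedekindDomain B1]
    (hB1f : ¬ IsField B1) {g : ℕ} (hg : ChiBC36.chiUnit k B0 B1 B01 + g = 1) :
    CovHyp c0 e i₀ g := by
  intro K _ _ M hM _ hχ
  have hg' : ChiBC36.chiUnit k B0 B1 B01 = 1 - (g : ℤ) := by omega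
  obtain ⟨m, l, v, hlen, hw⟩ := CovFinal.exists_cover_wCore c0 e H.hc0 H.hInf i₀ hB0f hB1f
    H.hB0 H.hB1 hg' K M hM (fun p => by rw [hχ p, hg'])
  exact ⟨m, l, v, hlen, hw⟩

end Fermat.Agent.Jac.Cover12.CovHyp
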