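/-
Programme JAC (S25), brick A6 Cover (helper12), file 8: **the covering lemma for the base change
of a curve chart to a field** (blueprint 271, Claim 7, final form).

`k` algebraically closed, `c0 : TwoChart k B0 B1 B01` finite projective over the line with
Dedekind charts, `e i : B1 →ₐ[k] k` finitely many `k`-points of chart 1 (the points at infinity),
`K` any field over `k`, `L` a line bundle over `c0.baseChange K`.  Then there are `m : ℕ` and
`k`-points `q_1, …, q_n` of chart 0 such that for `M := L(m·∞ - Σ q_j)`: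
`H⁰(M(-e i)) = H¹(M(-e i)) = 0` for all `i`, `χ(M) = 1` and `n = χ(L) + m·d - 1` with
`d = dim_k B1/sB1` (independent of `K`).
-/
import Fermat.Agent.Jac.Cover12.FieldCover
import Fermat.Agent.Jac.CurveBaseChange98Good

set_option autoImplicit false
set_option linter.unusedSectionVars false

universe u

open TensorProduct Module

namespace Fermat.Agent.Jac.Cover12.TensorCover

open Fermat.Agent.Jac Fermat.Agent.Jac.LineOps39 Fermat.Agent.Jac.RiemannCover82.Cover
  Fermat.Agent.Jac.RiemannCover82.Step Fermat.Agent.Jac.AbelJacobi73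
  Fermat.Agent.Jac.Cover12.FieldCover Fermat.Agent.Jac.CurveBaseChange40
  Fermat.Agent.Jac.CurveBaseChange98Good
open scoped Fermat.Agent.Jac.BaseChange75

variable {k : Type u} [Field k] {B0 B1 B01 : Type u} [CommRing B0] [CommRing B1] [CommRing B01]
  [Algebra k B0] [Algebra k B1] [Algebra k B01] [Algebra B0 B01] [Algebra B1 B01]
  [IsScalarTower k B0 B01] [IsScalarTower k B1 B01] (c0 : TwoChart k B0 B1 B01)
  (K : Type u) [Field K] [Algebra k K]

/-! ### The degree at infinity does not depend on the base field -/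

/-- Multiplication by `s` on `B1`, as a `k`-linear map. -/
noncomputable def mulS : B1 →ₗ[k] B1 := (LinearMap.lsmul B1 B1 (c0.s ^ 1)).restrictScalars k

theorem range_mulS : LinearMap.range (mulS c0) = P1CohChi.Fibre.sSub k (c0.s ^ 1) B1 := rfl

theorem baseChange_mulS :
    (mulS c0).baseChange K =
      (LinearMap.lsmul (K ⊗[k] B1) (K ⊗[k] B1) ((c0.baseChange K).s ^ 1)).restrictScalars K := by
  apply TensorProduct.AlgebraTensorModule.curry_injective
  apply LinearMap.ext_ring
  ext b
  simp [mulS, BaseChange75.baseChange_s, Algebra.TensorProduct.tmul_mul_tmul]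

/-- The fibre at infinity of `c0.baseChange K` is the base change of that of `c0`. -/
noncomputable def uInfEquiv :
    K ⊗[k] P1CohChi.LineRank.UInf c0 ≃ₗ[K] P1CohChi.LineRank.UInf (c0.baseChange K) :=
  (P1CohH1.cokerBaseChangeEquiv (mulS c0) K).trans
    (Submodule.quotEquivOfEq _ _ (by rw [baseChange_mulS]; rfl))

/-- The degree at infinity of `c0.baseChange K` is that of `c0`. -/
theorem degInf_baseChange : degInf (c0.baseChange K) = degInf c0 := by
  unfold degInf
  rw [← (uInfEquiv c0 K).finrank_eq, Module.finrank_baseChange]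

/-! ### The covering lemma -/

/-- The point at infinity `e`, as an ideal pair of `c0.baseChange K`. -/
noncomputable def infPair (e : B1 →ₐ[k] k) :
    IdealPair (K ⊗[k] B0) (K ⊗[k] B1) (K ⊗[k] B01) :=
  IdealPair.ofChart1 (c0.baseChange K) (ptIdeal K e)

theorem isRatPointPair_infPair (e : B1 →ₐ[k] k) :
    IsRatPointPair (c0.baseChange K) (infPair c0 K e) :=
  Or.inr ⟨ptIdeal K e, ptIdeal_isMaximal K e, algebraMap_quotient_ptIdeal_surjective K e, rfl⟩

theorem invertible_infPair_I1 [IsDedekindDomain B1] (hB1 : ¬ IsField B1) (e : B1 →ₐ[k] k) :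
    Module.Invertible (K ⊗[k] B1) (infPair c0 K e).I1 :=
  invertible_ptIdeal k B1 K hB1 e

theorem invertible_infPair_I0 [IsDedekindDomain B1] (hB1 : ¬ IsField B1) (e : B1 →ₐ[k] k) :
    Module.Invertible (K ⊗[k] B0) (infPair c0 K e).I0 := by
  obtain ⟨a, ha⟩ := exists_const_sub_mem (ptIdeal K e)
    (algebraMap_quotient_ptIdeal_surjective K e) (c0.baseChange K).s
  exact invertible_ofChart1_I0 (c0.baseChange K) (ptIdeal K e)
    (invertible_ptIdeal k B1 K hB1 e) a ha

/-- **The covering lemma for `c0.baseChange K`.** -/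
theorem exists_cover_tensor [IsAlgClosed k] (hc0 : c0.FiniteProjOverLine)
    [Algebra.FiniteType k B0] [IsDedekindDomain B0] (hB0 : ¬ IsField B0)
    [IsDedekindDomain B1] (hB1 : ¬ IsField B1)
    {ι : Type*} [Finite ι] [Nonempty ι] (e : ι → (B1 →ₐ[k] k))
    {L : QC2 K (K ⊗[k] B0) (K ⊗[k] B1) (K ⊗[k] B01)} (hL : L.IsLine) :
    ∃ (m : ℕ) (qs : List (B0 →ₐ[k] k)),
      (qs.length : ℤ) = chiK L + (m : ℤ) * (degInf c0 : ℤ) - 1 ∧
      (downTwistList (c0.baseChange K) (L.twist (c0.baseChange K) m)
        (qs.map (ptIdeal K))).IsLine ∧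
      chiK (downTwistList (c0.baseChange K) (L.twist (c0.baseChange K) m)
        (qs.map (ptIdeal K))) = 1 ∧
      ∀ i, (downTwist (c0.baseChange K)
          (downTwistList (c0.baseChange K) (L.twist (c0.baseChange K) m) (qs.map (ptIdeal K)))
          (infPair c0 K (e i))).H0 = ⊥ ∧
        Subsingleton (downTwist (c0.baseChange K)
          (downTwistList (c0.baseChange K) (L.twist (c0.baseChange K) m) (qs.map (ptIdeal K)))
          (infPair c0 K (e i))).H1 := by
  obtain ⟨hPts, hgood, hz⟩ := covering_inputs c0 K hB0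
  obtain ⟨m, l, hl, hlen, hline, hchi, hres⟩ :=
    exists_cover_chi (c0.baseChange K) (hc0.baseChange K) hPts hgood hz
      (fun i => infPair c0 K (e i)) (fun i => isRatPointPair_infPair c0 K (e i))
      (fun i => invertible_infPair_I0 c0 K hB1 (e i))
      (fun i => invertible_infPair_I1 c0 K hB1 (e i)) hL
  have hex : ∃ qs : List (B0 →ₐ[k] k), qs.map (ptIdeal K) = l := by
    clear hlen hline hchi hres
    induction l with
    | nil => exact ⟨[], rfl⟩
    | cons p l ih =>
      obtain ⟨q, hq⟩ := hl p (List.mem_cons_self ..)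
      obtain ⟨qs, hqs⟩ := ih (fun p' hp' => hl p' (List.mem_cons_of_mem _ hp'))
      exact ⟨q :: qs, by rw [List.map_cons, hq, hqs]⟩
  obtain ⟨qs, rfl⟩ := hex
  refine ⟨m, qs, ?_, hline, hchi, hres⟩
  rw [List.length_map, degInf_baseChange] at hlen
  exact hlen

end Fermat.Agent.Jac.Cover12.TensorCover
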